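import Mathlib
import Fermat.Prelude.Def_EllipticCurve_FrobeniusTrace
import Fermat.Agent.S05.VarChange

/-!
# Generic helper lemmas for the Frobenius relation on torsion points

* `Rel.baseChange`, `Rel.pointMap_smul` : a change of variables over `F` induces a Galois
  equivariant map on the points over an extension `K`.
* `rel_variableChange` : Mathlib's `VariableChange` action gives a `Rel`.
* `isAlgClosed_residueField` : the residue field of a valuation subring of an algebraically
  closed field is algebraically closed.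
* `charP_residueField`, `valuation_natCast_eq_one`, `isUnit_intCast` : places over a prime `ℓ`.
* `frobenius_coord` : a Frobenius element raises residues of integral elements to the `ℓ`-th
  power.
-/

set_option autoImplicit false

namespace Fermat.Agent.S41.NonEis.Basics

open WeierstrassCurve WeierstrassCurve.Affine Fermat.Agent.S05.VarChange

section RelBaseChange

variable {F K : Type*} [Field F] [Field K] [Algebra F K]

/-- Base change of a change-of-variables relation. -/
theorem rel_baseChange {W W' : Affine F} {u r s t : F} (H : Rel W W' u r s t) :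
    Rel (W⁄K) (W'⁄K) (algebraMap F K u) (algebraMap F K r) (algebraMap F K s)
      (algebraMap F K t) := by
  refine ⟨(map_ne_zero _).mpr H.hu, ?_, ?_, ?_, ?_, ?_⟩
  · have := congrArg (algebraMap F K) H.h₁
    simpa only [WeierstrassCurve.baseChange, WeierstrassCurve.map_a₁, map_mul, map_add,
      map_ofNat] using this
  · have := congrArg (algebraMap F K) H.h₂
    simpa only [WeierstrassCurve.baseChange, WeierstrassCurve.map_a₁, WeierstrassCurve.map_a₂,
      map_mul, map_add, map_sub, map_pow, map_ofNat] using this
  · have := congrArg (algebraMap F K) H.h₃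
    simpa only [WeierstrassCurve.baseChange, WeierstrassCurve.map_a₁, WeierstrassCurve.map_a₃,
      map_mul, map_add, map_sub, map_pow, map_ofNat] using this
  · have := congrArg (algebraMap F K) H.h₄
    simpa only [WeierstrassCurve.baseChange, WeierstrassCurve.map_a₁, WeierstrassCurve.map_a₂,
      WeierstrassCurve.map_a₃, WeierstrassCurve.map_a₄,
      map_mul, map_add, map_sub, map_pow, map_ofNat] using this
  · have := congrArg (algebraMap F K) H.h₆
    simpa only [WeierstrassCurve.baseChange, WeierstrassCurve.map_a₁, WeierstrassCurve.map_a₂,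
      WeierstrassCurve.map_a₃, WeierstrassCurve.map_a₄, WeierstrassCurve.map_a₆,
      map_mul, map_add, map_sub, map_pow, map_ofNat] using this

variable [DecidableEq K]

/-- The map on points induced by a change of variables over `F` commutes with the action of
`K ≃ₐ[F] K`. -/
theorem pointMap_smul {W W' : Affine F} {u r s t : F} (H : Rel W W' u r s t)
    (σ : K ≃ₐ[F] K) (P : (W'⁄K).Point) :
    (rel_baseChange (K := K) H).pointMap (σ • P) = σ • (rel_baseChange (K := K) H).pointMap P := by
  rcases P with _ | ⟨x, y, h⟩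
  · rfl
  · rw [Point.algEquiv_smul_def, Point.algEquiv_smul_def, Point.map_some, Rel.pointMap_some,
      Rel.pointMap_some, Point.map_some]
    simp only [map_add, map_mul, map_pow, AlgHom.commutes]

end RelBaseChange

section VarChange

variable {F : Type*} [Field F]

/-- Mathlib's action of a `VariableChange` as a `Rel`. -/
theorem rel_variableChange (W : WeierstrassCurve F) (C : VariableChange F) :
    Rel W.toAffine (C • W).toAffine (C.u : F) C.r C.s C.t := by
  have hu : (C.u : F) ≠ 0 := C.u.ne_zero
  refine ⟨hu, ?_, ?_, ?_, ?_, ?_⟩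
  · rw [WeierstrassCurve.variableChange_a₁]; simp only [Units.val_inv_eq_inv_val]; field_simp
  · rw [WeierstrassCurve.variableChange_a₂]; simp only [Units.val_inv_eq_inv_val]; field_simp
  · rw [WeierstrassCurve.variableChange_a₃]; simp only [Units.val_inv_eq_inv_val]; field_simp
  · rw [WeierstrassCurve.variableChange_a₄]; simp only [Units.val_inv_eq_inv_val]; field_simp
  · rw [WeierstrassCurve.variableChange_a₆]; simp only [Units.val_inv_eq_inv_val]; field_simp

end VarChange

section Residue

variable {K : Type*} [Field K] (A : ValuationSubring K)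

/-- The residue field of a valuation subring of an algebraically closed field is algebraically
closed. -/
theorem isAlgClosed_residueField [IsAlgClosed K] : IsAlgClosed (IsLocalRing.ResidueField A) := by
  refine IsAlgClosed.of_exists_root _ fun p hmonic hirr => ?_
  have hp : p ∈ Polynomial.lifts (IsLocalRing.residue A) :=
    (Polynomial.mem_lifts p).mpr
      (Polynomial.map_surjective _ (IsLocalRing.residue_surjective (R := A)) p)
  obtain ⟨q, hq, hqdeg, hqmonic⟩ := Polynomial.lifts_and_degree_eq_and_monic hp hmonic
  have hdeg : (q.map A.subtype).degree ≠ 0 := by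
    rw [Polynomial.degree_map_eq_of_injective (Subtype.val_injective), hqdeg]
    exact (Polynomial.degree_pos_of_irreducible hirr).ne'
  obtain ⟨z, hz⟩ := IsAlgClosed.exists_root (q.map A.subtype) hdeg
  have hint : IsIntegral A z := ⟨q, hqmonic, by
    rw [← Polynomial.eval_map]; exact hz⟩
  obtain ⟨z', rfl⟩ := IsIntegrallyClosed.isIntegral_iff.mp hint
  refine ⟨IsLocalRing.residue A z', ?_⟩
  rw [← hq, Polynomial.eval_map, Polynomial.eval₂_at_apply]
  have h0 : Polynomial.eval z' q = 0 := by
    apply Subtype.val_injective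
    have h3 : Polynomial.eval (A.subtype z') (q.map A.subtype) = 0 := hz
    rw [Polynomial.eval_map, Polynomial.eval₂_at_apply] at h3
    exact h3
  rw [h0, map_zero]

variable {A}

/-- The residue field at a place over `ℓ` has characteristic `ℓ`. -/
theorem charP_residueField {ℓ : ℕ} (hℓ : ℓ.Prime) (hA : A.LiesOverPrime ℓ) :
    CharP (IsLocalRing.ResidueField A) ℓ := by
  refine (CharP.charP_iff_prime_eq_zero hℓ).2 ?_
  obtain ⟨hmem, hmax⟩ := (A.mem_nonunits_iff_exists_mem_maximalIdeal).1 hA
  have h1 : (⟨(ℓ : K), hmem⟩ : A) = ((ℓ : ℕ) : A) := Subtype.ext (by simp)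
  rw [h1] at hmax
  have h2 := (IsLocalRing.residue_eq_zero_iff ((ℓ : ℕ) : A)).2 hmax
  rwa [map_natCast] at h2

theorem valuation_prime_lt_one {ℓ : ℕ} (hA : A.LiesOverPrime ℓ) : A.valuation (ℓ : K) < 1 := by
  obtain ⟨hmem, hmax⟩ := (A.mem_nonunits_iff_exists_mem_maximalIdeal).1 hA
  exact (A.valuation_lt_one_iff ⟨(ℓ : K), hmem⟩).mp hmax

/-- An integer prime to `ℓ` is a unit at a place over `ℓ`. -/
theorem valuation_intCast_eq_one {ℓ : ℕ} (hℓ : ℓ.Prime) (hA : A.LiesOverPrime ℓ) {a : ℤ}
    (ha : ¬ (ℓ : ℤ) ∣ a) : A.valuation (a : K) = 1 := by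
  have hle : ∀ b : ℤ, A.valuation (b : K) ≤ 1 := fun b =>
    (A.valuation_le_one_iff _).mpr (intCast_mem A b)
  have hcop : IsCoprime (ℓ : ℤ) a :=
    (Prime.coprime_iff_not_dvd (Nat.prime_iff_prime_int.mp hℓ)).mpr ha
  obtain ⟨u, w, huw⟩ := hcop
  have h1 : (u : K) * ℓ + (w : K) * a = 1 := by
    have := congrArg (Int.cast : ℤ → K) huw
    push_cast at this
    exact this
  by_contra hne
  have hlt : A.valuation (a : K) < 1 := lt_of_le_of_ne (hle a) hne
  have h2 : A.valuation ((u : K) * ℓ + (w : K) * a) < 1 := by
    refine lt_of_le_of_lt (Valuation.map_add A.valuation _ _) (max_lt ?_ ?_)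
    · rw [map_mul]
      exact lt_of_le_of_lt (mul_le_of_le_one_left' (hle u)) (valuation_prime_lt_one hA)
    · rw [map_mul]
      exact lt_of_le_of_lt (mul_le_of_le_one_left' (hle w)) hlt
  rw [h1, map_one] at h2
  exact lt_irrefl _ h2

theorem valuation_natCast_eq_one {ℓ : ℕ} (hℓ : ℓ.Prime) (hA : A.LiesOverPrime ℓ) {n : ℕ}
    (hn : ¬ ℓ ∣ n) : A.valuation (n : K) = 1 := by
  have := valuation_intCast_eq_one hℓ hA (a := (n : ℤ)) (by exact_mod_cast hn)
  simpa using this

/-- An integer prime to `ℓ` is a unit of the valuation ring at a place over `ℓ`. -/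
theorem isUnit_intCast {ℓ : ℕ} (hℓ : ℓ.Prime) (hA : A.LiesOverPrime ℓ) {a : ℤ}
    (ha : ¬ (ℓ : ℤ) ∣ a) : IsUnit ((a : ℤ) : A) := by
  rw [A.valuation_eq_one_iff]
  have := valuation_intCast_eq_one hℓ hA ha
  simpa using this

end Residue

section Frobenius

variable {K L : Type*} [Field K] [Field L] [Algebra K L] {A : ValuationSubring L}

/-- A Frobenius element preserves `A` and raises residues to the `ℓ`-th power. -/
theorem frobenius_coord {σ : L ≃ₐ[K] L} {ℓ : ℕ} (hσ : A.IsFrobeniusAt σ ℓ) (x : A) :
    ∃ h : σ (x : L) ∈ A, IsLocalRing.residue A ⟨σ (x : L), h⟩ = IsLocalRing.residue A x ^ ℓ := by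
  set g : A.decompositionSubgroup K := ⟨σ, hσ.mem_decompositionSubgroup⟩ with hg
  refine ⟨(g • x).2, ?_⟩
  have h := hσ.smul_residue_eq (IsLocalRing.residue A x)
  rw [← IsLocalRing.ResidueField.residue_smul] at h
  exact h

end Frobenius

end Fermat.Agent.S41.NonEis.Basics
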