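import Mathlib

/-!
# A coset of unipotent elements in dimension two

`V` a two-dimensional vector space (here: a `ZMod p`-module with `p ^ 2` elements) with a linear
action of a group `G`.  An element `g` is *unipotent* (`IsUnip g`) if `(g - 1)² = 0` on `V`.

* `matrix_unip_of_coset` : for `2 × 2` matrices over a field, `(U - 1)² = 0`, `(U X - 1)² = 0`
  and `(U² X - 1)² = 0` imply `(X - 1)² = 0` (traces, determinants, Cayley–Hamilton).
* `isUnip_of_coset` : if `u`, `u * x` and `u * u * x` are unipotent then `x` is unipotent.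
* `isUnip_pow` : powers of unipotent elements are unipotent.

This is the group-theoretic step of the non-Eisenstein prime with a Kummer condition
(`KummerMain.lean`).
-/

set_option autoImplicit false

namespace Fermat.Agent.S41.NonEis.Kummer

section Mat

variable {F : Type*} [Field F]

/-- Cayley–Hamilton for `2 × 2` matrices. -/
theorem matrix_two_cayley (X : Matrix (Fin 2) (Fin 2) F) :
    X * X = X.trace • X - X.det • (1 : Matrix (Fin 2) (Fin 2) F) := by
  ext i j
  fin_cases i <;> fin_cases j <;>
    simp [Matrix.mul_apply, Fin.sum_univ_two, Matrix.trace_fin_two, Matrix.det_fin_two] <;> ring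

/-- A `2 × 2` matrix of square zero has trace and determinant zero. -/
theorem matrix_two_trace_det_of_sq_zero (Z : Matrix (Fin 2) (Fin 2) F) (h : Z * Z = 0) :
    Z.trace = 0 ∧ Z.det = 0 := by
  have hdet : Z.det = 0 := by
    have h1 : Z.det * Z.det = 0 := by rw [← Matrix.det_mul, h, Matrix.det_zero]
    exact mul_self_eq_zero.mp h1
  refine ⟨?_, hdet⟩
  have h00 := congrFun (congrFun h 0) 0
  have h11 := congrFun (congrFun h 1) 1
  simp only [Matrix.mul_apply, Fin.sum_univ_two, Matrix.zero_apply] at h00 h11
  rw [Matrix.det_fin_two] at hdet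
  have h2 : Z.trace * Z.trace = 0 := by
    rw [Matrix.trace_fin_two]
    linear_combination h00 + h11 + 2 * hdet
  exact mul_self_eq_zero.mp h2

/-- A unipotent `2 × 2` matrix has trace `2` and determinant `1`. -/
theorem matrix_two_trace_det_of_unip (Y : Matrix (Fin 2) (Fin 2) F)
    (h : (Y - 1) * (Y - 1) = 0) : Y.trace = 2 ∧ Y.det = 1 := by
  obtain ⟨ht, hd⟩ := matrix_two_trace_det_of_sq_zero _ h
  rw [Matrix.trace_fin_two] at ht
  rw [Matrix.det_fin_two] at hd
  simp only [Matrix.sub_apply, Matrix.one_apply_eq, Matrix.one_apply_ne, ne_eq, Fin.isValue,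
    zero_ne_one, one_ne_zero, not_false_eq_true, sub_zero] at ht hd
  refine ⟨?_, ?_⟩
  · rw [Matrix.trace_fin_two]
    linear_combination ht
  · rw [Matrix.det_fin_two]
    linear_combination hd + ht

/-- **A coset of unipotent matrices.** -/
theorem matrix_unip_of_coset (U X : Matrix (Fin 2) (Fin 2) F)
    (hU : (U - 1) * (U - 1) = 0) (h1 : (U * X - 1) * (U * X - 1) = 0)
    (h2 : (U * U * X - 1) * (U * U * X - 1) = 0) : (X - 1) * (X - 1) = 0 := by
  obtain ⟨-, hdU⟩ := matrix_two_trace_det_of_unip U hU
  obtain ⟨ht1, hd1⟩ := matrix_two_trace_det_of_unip _ h1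
  obtain ⟨ht2, -⟩ := matrix_two_trace_det_of_unip _ h2
  have hUU : U * U = 2 • U - 1 := by
    have e : (U - 1) * (U - 1) = U * U - 2 • U + 1 := by
      rw [sub_mul, mul_sub, mul_sub, mul_one, one_mul, mul_one, two_nsmul]
      abel
    rw [e] at hU
    rw [← sub_eq_zero, ← hU]
    abel
  have hUUX : U * U * X = 2 • (U * X) - X := by
    rw [hUU, sub_mul, one_mul, smul_mul_assoc]
  have htX : X.trace = 2 := by
    rw [hUUX, Matrix.trace_sub, Matrix.trace_smul, ht1] at ht2
    have e : (2 : ℕ) • (2 : F) - X.trace = 2 := ht2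
    rw [nsmul_eq_mul] at e
    push_cast at e
    linear_combination -e
  have hdX : X.det = 1 := by
    rw [Matrix.det_mul, hdU, one_mul] at hd1
    exact hd1
  have hC := matrix_two_cayley X
  rw [htX, hdX, one_smul] at hC
  have e : (X - 1) * (X - 1) = X * X - (2 : F) • X + 1 := by
    rw [sub_mul, mul_sub, mul_sub, mul_one, one_mul, mul_one, two_smul]
    abel
  rw [e, hC]
  abel

end Mat

section Action

variable {G V : Type*} [Group G] [AddCommGroup V] [DistribMulAction G V]

/-- `g` is unipotent on `V`: `(g - 1)² = 0`. -/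
def IsUnip (V : Type*) [AddCommGroup V] [DistribMulAction G V] (g : G) : Prop :=
  ∀ v : V, g • g • v - (2 : ℤ) • g • v + v = 0

/-- If `(s - 1)² = 0` on `V` then `s ^ k = 1 + k (s - 1)`. -/
theorem pow_smul_of_isUnip {s : G} (hs : IsUnip V s) (k : ℕ) (v : V) :
    (s ^ k) • v = v + k • (s • v - v) := by
  induction k with
  | zero => simp
  | succ k ih =>
    have e : s • (k • (s • v - v)) = k • (s • (s • v - v)) :=
      map_nsmul (DistribSMul.toAddMonoidHom V s) k (s • v - v)
    have h2 : s • s • v = (2 : ℤ) • s • v - v := by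
      have := hs v
      rw [← sub_eq_zero]
      rw [← this]
      abel
    rw [pow_succ', mul_smul, ih, smul_add, e, smul_sub, h2, succ_nsmul]
    have e3 : (2 : ℤ) • s • v - v - s • v = s • v - v := by
      rw [two_zsmul]; abel
    rw [e3]
    abel

/-- Powers of unipotent elements are unipotent. -/
theorem isUnip_pow {s : G} (hs : IsUnip V s) (k : ℕ) : IsUnip V (s ^ k) := by
  intro v
  have h1 := pow_smul_of_isUnip hs k v
  have h2 := pow_smul_of_isUnip hs k ((s ^ k) • v)
  have h3 : s • (k • (s • v - v)) = k • (s • (s • v - v)) :=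
    map_nsmul (DistribSMul.toAddMonoidHom V s) k (s • v - v)
  have h4 : s • (s • v - v) = s • v - v := by
    have := hs v
    rw [smul_sub, ← sub_eq_zero, ← this, two_zsmul]
    abel
  -- `(s^k) • (s^k) • v = (s^k) • v + k • (s • (s^k) • v - (s^k) • v)` and
  -- `s • (s^k) • v - (s^k) • v = s • v - v`
  have h5 : s • (s ^ k) • v - (s ^ k) • v = s • v - v := by
    rw [h1, smul_add, h3, h4]
    abel
  rw [h2, h5, h1, two_zsmul]
  abel

/-- Elements acting in the same way are unipotent together. -/
theorem isUnip_congr {g g' : G} (h : ∀ v : V, g • v = g' • v) (hg : IsUnip V g) :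
    IsUnip V g' := by
  intro v
  have := hg v
  rwa [h, h] at this

/-- The `p`-th power of a unipotent element acts trivially on a module killed by `p`. -/
theorem pow_smul_eq_self_of_isUnip {s : G} (hs : IsUnip V s) (p : ℕ) (hp : ∀ v : V, p • v = 0)
    (v : V) : (s ^ p) • v = v := by
  rw [pow_smul_of_isUnip hs, hp, add_zero]

end Action

section Coset

variable {p : ℕ} [Fact p.Prime] {G V : Type*} [Group G] [AddCommGroup V] [Module (ZMod p) V]
  [DistribMulAction G V] [SMulCommClass G (ZMod p) V]

/-- `IsUnip` in terms of the endomorphism `g - 1`. -/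
theorem isUnip_iff_end (g : G) :
    IsUnip V g ↔ (DistribMulAction.toModuleEnd (ZMod p) V g - 1) *
      (DistribMulAction.toModuleEnd (ZMod p) V g - 1) = 0 := by
  constructor
  · intro h
    ext v
    have := h v
    simp only [Module.End.mul_apply, LinearMap.sub_apply, DistribMulAction.toModuleEnd_apply,
      DistribSMul.toLinearMap_apply, Module.End.one_apply, LinearMap.zero_apply, smul_sub]
    rw [← this, two_zsmul]
    abel
  · intro h v
    have := LinearMap.congr_fun h v
    simp only [Module.End.mul_apply, LinearMap.sub_apply, DistribMulAction.toModuleEnd_apply,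
      DistribSMul.toLinearMap_apply, Module.End.one_apply, LinearMap.zero_apply, smul_sub] at this
    rw [← this, two_zsmul]
    abel

/-- **A coset of unipotent elements** on a plane over `𝔽_p`: if `u`, `u * x` and `u * u * x`
are unipotent then so is `x`. -/
theorem isUnip_of_coset (hcard : Nat.card V = p ^ 2) (u x : G) (hu : IsUnip V u)
    (h1 : IsUnip V (u * x)) (h2 : IsUnip V (u * u * x)) : IsUnip V x := by
  have hp : p.Prime := Fact.out
  have hfin : Finite V := Nat.finite_of_card_ne_zero (by rw [hcard]; exact pow_ne_zero 2 hp.ne_zero)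
  have hMF : Module.Finite (ZMod p) V := Module.Finite.of_finite
  have hrank : Module.finrank (ZMod p) V = 2 := by
    have h := Module.natCard_eq_pow_finrank (K := ZMod p) (V := V)
    rw [hcard, Nat.card_zmod] at h
    exact (Nat.pow_right_injective hp.two_le h).symm
  let b : Module.Basis (Fin 2) (ZMod p) V := Module.finBasisOfFinrankEq (ZMod p) V hrank
  let e := LinearMap.toMatrixAlgEquiv b
  rw [isUnip_iff_end (p := p)] at hu h1 h2 ⊢
  rw [map_mul] at h1
  rw [map_mul, map_mul] at h2
  have hu' := congrArg e hu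
  have h1' := congrArg e h1
  have h2' := congrArg e h2
  simp only [map_mul, map_sub, map_one, map_zero] at hu' h1' h2'
  have := matrix_unip_of_coset _ _ hu' h1' h2'
  apply e.injective
  simp only [map_mul, map_sub, map_one, map_zero]
  exact this

end Coset

end Fermat.Agent.S41.NonEis.Kummer

namespace Fermat.Agent.S41.NonEis.KummerLin

/-- `Kummer.isUnip_of_coset` with the relations spelled out. -/
theorem unip_of_mul {p : ℕ} [Fact p.Prime] {V : Type*} [AddCommGroup V] [Module (ZMod p) V]
    {G : Type*} [Group G] [DistribMulAction G V] [SMulCommClass G (ZMod p) V]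
    (hcard : Nat.card V = p ^ 2) (u x : G)
    (hu : ∀ v : V, u • u • v - (2 : ℤ) • u • v + v = 0)
    (hux : ∀ v : V, (u * x) • (u * x) • v - (2 : ℤ) • (u * x) • v + v = 0)
    (huux : ∀ v : V, (u * u * x) • (u * u * x) • v - (2 : ℤ) • (u * u * x) • v + v = 0) :
    ∀ v : V, x • x • v - (2 : ℤ) • x • v + v = 0 :=
  Fermat.Agent.S41.NonEis.Kummer.isUnip_of_coset hcard u x hu hux huux

end Fermat.Agent.S41.NonEis.KummerLin
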