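import Mathlib
import Fermat.Prelude.Def_EllipticCurve_FrobeniusTrace
import Fermat.Prelude.Def_GaloisRep_ComplexConjugation
import Fermat.Agent.S41.NonEis.Basics

/-!
# Frobenius elements and complex conjugation on roots of unity

* `eq_of_residue_eq` : reduction at a place over `ℓ` is injective on `n`-th roots of unity,
  `ℓ ∤ n`.
* `frobenius_root` / `frobenius_pow_root` : a Frobenius element at a place over `ℓ` raises
  `n`-th roots of unity (`ℓ ∤ n`) to the `ℓ`-th power.
* `complexConjugation_root` : complex conjugation inverts roots of unity.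
-/

set_option autoImplicit false

namespace Fermat.Agent.S41.NonEis.Roots

open Fermat.Agent.S41.NonEis

section Residue

variable {L : Type*} [Field L] {A : ValuationSubring L}

/-- A root of unity lies in every valuation subring. -/
theorem mem_of_pow_eq_one {ζ : L} {n : ℕ} (hn : 0 < n) (h : ζ ^ n = 1) : ζ ∈ A := by
  rcases A.mem_or_inv_mem ζ with h1 | h1
  · exact h1
  · have h3 : ζ * ζ ^ (n - 1) = 1 := by
      rw [← pow_succ', Nat.sub_add_cancel hn, h]
    have h2 : ζ = (ζ⁻¹) ^ (n - 1) := by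
      rw [inv_pow]
      exact eq_inv_of_mul_eq_one_left h3
    rw [h2]
    exact pow_mem h1 _

/-- Reduction at a place over `ℓ` is injective on `n`-th roots of unity, `ℓ ∤ n`. -/
theorem eq_of_residue_eq {ℓ n : ℕ} (hℓ : ℓ.Prime) (hA : A.LiesOverPrime ℓ) (hn : ¬ ℓ ∣ n)
    (hn0 : 0 < n) {x y : A} (hx : x ^ n = 1) (hy : y ^ n = 1)
    (h : IsLocalRing.residue A x = IsLocalRing.residue A y) : x = y := by
  have hchar := Basics.charP_residueField hℓ hA
  set ω : A := x * y ^ (n - 1) with hω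
  have hyy : y ^ (n - 1) * y = 1 := by rw [← pow_succ, Nat.sub_add_cancel hn0, hy]
  have hωn : ω ^ n = 1 := by
    rw [hω, mul_pow, hx, one_mul, ← pow_mul, mul_comm, pow_mul, hy, one_pow]
  have hωres : IsLocalRing.residue A ω = 1 := by
    rw [hω, map_mul, h, map_pow, ← pow_succ', Nat.sub_add_cancel hn0, ← map_pow, hy, map_one]
  have hω1 : ω = 1 := by
    by_contra hne
    have hsum : ∑ i ∈ Finset.range n, ω ^ i = 0 := by
      have := mul_geom_sum ω n
      rw [hωn, sub_self] at this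
      exact (mul_eq_zero.mp this).resolve_left (sub_ne_zero.mpr hne)
    have h2 := congrArg (IsLocalRing.residue A) hsum
    rw [map_sum, map_zero] at h2
    simp only [map_pow, hωres, one_pow, Finset.sum_const, Finset.card_range, nsmul_eq_mul,
      mul_one] at h2
    exact hn ((CharP.cast_eq_zero_iff (IsLocalRing.ResidueField A) ℓ n).mp h2)
  calc x = x * (y ^ (n - 1) * y) := by rw [hyy, mul_one]
    _ = ω * y := by rw [hω, mul_assoc]
    _ = y := by rw [hω1, one_mul]

end Residue

section Frobenius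

variable {K L : Type*} [Field K] [Field L] [Algebra K L] {A : ValuationSubring L}

/-- A Frobenius element at a place over `ℓ` raises roots of unity of order prime to `ℓ` to the
`ℓ`-th power. -/
theorem frobenius_root {ℓ n : ℕ} (hℓ : ℓ.Prime) (hA : A.LiesOverPrime ℓ) (hn : ¬ ℓ ∣ n)
    (hn0 : 0 < n) {σ : L ≃ₐ[K] L} (hσ : A.IsFrobeniusAt σ ℓ) {ζ : L} (hζ : ζ ^ n = 1) :
    σ ζ = ζ ^ ℓ := by
  set z : A := ⟨ζ, mem_of_pow_eq_one hn0 hζ⟩ with hz
  have hzn : z ^ n = 1 := Subtype.ext (by simpa using hζ)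
  obtain ⟨hmem, hres⟩ := Basics.frobenius_coord hσ z
  have h1 : (⟨σ ζ, hmem⟩ : A) ^ n = 1 := by
    apply Subtype.ext
    change (σ ζ) ^ n = 1
    rw [← map_pow, hζ, map_one]
  have h2 : (z ^ ℓ) ^ n = 1 := by rw [← pow_mul, mul_comm, pow_mul, hzn, one_pow]
  have h3 : IsLocalRing.residue A (⟨σ ζ, hmem⟩ : A) = IsLocalRing.residue A (z ^ ℓ) := by
    rw [map_pow]; exact hres
  have h4 := eq_of_residue_eq hℓ hA hn hn0 h1 h2 h3
  exact congrArg (fun a : A => (a : L)) h4

/-- Powers of a Frobenius element on roots of unity. -/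
theorem frobenius_pow_root {ℓ n : ℕ} (hℓ : ℓ.Prime) (hA : A.LiesOverPrime ℓ) (hn : ¬ ℓ ∣ n)
    (hn0 : 0 < n) {σ : L ≃ₐ[K] L} (hσ : A.IsFrobeniusAt σ ℓ) {ζ : L} (hζ : ζ ^ n = 1) (b : ℕ) :
    (σ ^ b) ζ = ζ ^ (ℓ ^ b) := by
  induction b with
  | zero => simp
  | succ b ih =>
    rw [pow_succ', AlgEquiv.mul_apply, ih, map_pow, frobenius_root hℓ hA hn hn0 hσ hζ,
      ← pow_mul, ← pow_succ']

end Frobenius

section Conj

/-- Complex conjugation inverts roots of unity. -/
theorem complexConjugation_root {ζ : AlgebraicClosure ℚ} {n : ℕ} (hn : 0 < n) (hζ : ζ ^ n = 1) :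
    complexConjugation ζ = ζ⁻¹ := by
  apply complexEmbedding.toRingHom.injective
  change complexEmbedding (complexConjugation ζ) = complexEmbedding ζ⁻¹
  rw [complexEmbedding_complexConjugation, map_inv₀]
  have h1 : (complexEmbedding ζ) ^ n = 1 := by rw [← map_pow, hζ, map_one]
  exact (Complex.inv_eq_conj (Complex.norm_eq_one_of_pow_eq_one h1 hn.ne')).symm

end Conj

end Fermat.Agent.S41.NonEis.Roots
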