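import Mathlib
import Fermat.Prelude.Def_EllipticCurve_FrobeniusTrace
import Fermat.Prelude.Def_GaloisRep_ComplexConjugation
import Fermat.Agent.S41.NonEis.Basics
import Fermat.Agent.S41.NonEis.Roots

/-!
# Kummer conditions at Frobenius elements

* `pow_ne_one_of_frobenius_ne` : if a Frobenius element at a place over `ℓ` moves a `p`-th root
  `α` of the integer `q` (`ℓ ∤ p q`, `p ∣ ℓ - 1`), then `q ^ ((ℓ - 1) / p) ≠ 1` in `ZMod ℓ`.
* `exists_root_fixed` : a `p`-th root of `q` in `Qb` fixed by complex conjugation (`p` odd).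
* `exists_mem_ker_ne` : such a root is moved by an element of the kernel of any homomorphism
  from the absolute Galois group to a commutative group (`q` prime, `p` odd).
-/

set_option autoImplicit false

namespace Fermat.Agent.S41.NonEis.KummerRes

open Fermat.Agent.S41.NonEis

section Residue

variable {K L : Type*} [Field K] [Field L] [Algebra K L] {A : ValuationSubring L}

/-- If a Frobenius element at a place over `ℓ` moves a `p`-th root of `q`, then `q` is not a
`p`-th power residue modulo `ℓ`, in the form `q ^ ((ℓ - 1) / p) ≠ 1`. -/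
theorem pow_ne_one_of_frobenius_ne {ℓ p q : ℕ} (hℓ : ℓ.Prime) (hA : A.LiesOverPrime ℓ)
    (hp : 0 < p) (hℓp : ¬ ℓ ∣ p) (hℓq : ¬ ℓ ∣ q) (hpℓ : p ∣ ℓ - 1)
    {σ : L ≃ₐ[K] L} (hσ : A.IsFrobeniusAt σ ℓ) {α : L} (hα : α ^ p = (q : L)) (hne : σ α ≠ α) :
    (q : ZMod ℓ) ^ ((ℓ - 1) / p) ≠ 1 := by
  intro h1
  apply hne
  have hchar := Basics.charP_residueField hℓ hA
  have hqA : (q : L) ∈ A := natCast_mem A q
  -- `α ∈ A`
  have hαA : α ∈ A := by
    rcases A.mem_or_inv_mem α with h | h
    · exact h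
    · by_cases h0 : α = 0
      · rw [h0]; exact A.zero_mem
      · have h3 : α * α ^ (p - 1) = (q : L) := by
          rw [← pow_succ', Nat.sub_add_cancel hp, hα]
        have h2 : α = (q : L) * (α⁻¹) ^ (p - 1) := by
          rw [inv_pow, ← h3, mul_assoc, mul_inv_cancel₀ (pow_ne_zero _ h0), mul_one]
        rw [h2]
        exact mul_mem hqA (pow_mem h _)
  set a : A := ⟨α, hαA⟩ with ha
  have hap : a ^ p = ((q : ℤ) : A) := Subtype.ext (by simpa using hα)
  -- `a` is a unit
  have hqu : IsUnit (((q : ℤ) : A)) :=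
    Basics.isUnit_intCast hℓ hA (a := (q : ℤ)) (by exact_mod_cast hℓq)
  have hau : IsUnit a := by
    have h3 : a * a ^ (p - 1) = ((q : ℤ) : A) := by
      rw [← pow_succ', Nat.sub_add_cancel hp, hap]
    rw [← h3] at hqu
    exact isUnit_of_mul_isUnit_left hqu
  obtain ⟨ua, hua⟩ := hau
  -- residues
  have hres1 : IsLocalRing.residue A a ^ p = ((q : ℕ) : IsLocalRing.ResidueField A) := by
    rw [← map_pow, hap]; simp
  have hq1 : ((q : ℕ) : IsLocalRing.ResidueField A) ^ ((ℓ - 1) / p) = 1 := by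
    have := congrArg (ZMod.castHom (dvd_refl ℓ) (IsLocalRing.ResidueField A)) h1
    simpa using this
  have hres2 : IsLocalRing.residue A a ^ (ℓ - 1) = 1 := by
    rw [← Nat.mul_div_cancel' hpℓ, pow_mul, hres1, hq1]
  have hres3 : IsLocalRing.residue A a ^ ℓ = IsLocalRing.residue A a := by
    conv_lhs => rw [← Nat.sub_add_cancel hℓ.one_le, pow_succ, hres2, one_mul]
  obtain ⟨hmem, hres⟩ := Basics.frobenius_coord hσ a
  rw [hres3] at hres
  set b : A := ⟨σ α, hmem⟩ with hb
  have hbp : b ^ p = a ^ p := by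
    apply Subtype.ext
    change (σ α) ^ p = α ^ p
    rw [← map_pow, hα, map_natCast]
  -- the quotient is a root of unity with trivial residue
  set x : A := b * ((ua⁻¹ : Aˣ) : A) with hx
  have hxp : x ^ p = 1 := by
    rw [hx, mul_pow, hbp, ← hua, ← mul_pow, Units.mul_inv, one_pow]
  have hxres : IsLocalRing.residue A x = IsLocalRing.residue A 1 := by
    rw [hx, map_mul, hres, ← map_mul, ← hua, Units.mul_inv]
  have hx1 : x = 1 := Roots.eq_of_residue_eq hℓ hA hℓp hp hxp (one_pow p) hxres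
  have hba : b = a := by
    have : b = x * a := by
      rw [hx, ← hua, mul_assoc, Units.inv_mul, mul_one]
    rw [this, hx1, one_mul]
  exact congrArg (fun z : A => (z : L)) hba

end Residue

section Commutator

local notation "Qb" => AlgebraicClosure ℚ
local notation "Γ" => (AlgebraicClosure ℚ ≃ₐ[ℚ] AlgebraicClosure ℚ)

/-- A `p`-th root of `q` fixed by complex conjugation (`p` odd). -/
theorem exists_root_fixed {p : ℕ} (hp : p.Prime) (hp2 : p ≠ 2) (q : ℕ) (hq : q ≠ 0) :
    ∃ α : Qb, α ^ p = (q : Qb) ∧ complexConjugation α = α := by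
  obtain ⟨α₀, hα₀⟩ := IsAlgClosed.exists_pow_nat_eq (q : Qb) hp.pos
  have hq0 : (q : Qb) ≠ 0 := Nat.cast_ne_zero.mpr hq
  have hα₀0 : α₀ ≠ 0 := by
    rintro rfl
    rw [zero_pow hp.ne_zero] at hα₀
    exact hq0 hα₀.symm
  set ω : Qb := complexConjugation α₀ / α₀ with hω
  have hωp : ω ^ p = 1 := by
    rw [hω, div_pow, ← map_pow, hα₀, map_natCast, div_self hq0]
  have hωc : complexConjugation ω = ω⁻¹ := Roots.complexConjugation_root hp.pos hωp
  have hω0 : ω ≠ 0 := by
    intro h0
    rw [h0, zero_pow hp.ne_zero] at hωp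
    exact zero_ne_one hωp
  have hodd : p % 2 = 1 := (hp.eq_two_or_odd).resolve_left hp2
  set j : ℕ := (p + 1) / 2 with hj
  have h2j : 2 * j = p + 1 := by omega
  have hcα : complexConjugation α₀ = ω * α₀ := by
    rw [hω, div_mul_cancel₀ _ hα₀0]
  refine ⟨α₀ * ω ^ j, ?_, ?_⟩
  · rw [mul_pow, hα₀, ← pow_mul, mul_comm j p, pow_mul, hωp, one_pow, mul_one]
  · rw [map_mul, map_pow, hωc, hcα, inv_pow]
    have h3 : ω ^ j * ω ^ j = ω * ω ^ p := by
      rw [← pow_add, ← two_mul, h2j, pow_succ']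
    rw [hωp, mul_one] at h3
    have h4 : ω ^ j ≠ 0 := pow_ne_zero _ hω0
    field_simp
    rw [pow_two, h3]

/-- A prime is not a `p`-th power of a rational number, `p ≥ 2`. -/
theorem rat_pow_ne_prime {p q : ℕ} (hp : 2 ≤ p) (hq : q.Prime) (r : ℚ) : r ^ p ≠ (q : ℚ) := by
  intro h
  have hF : Fact q.Prime := ⟨hq⟩
  have hr0 : r ≠ 0 := by
    rintro rfl
    rw [zero_pow (by omega)] at h
    exact (Nat.cast_ne_zero.mpr hq.ne_zero) h.symm
  have h1 := congrArg (padicValRat q) h
  rw [padicValRat.pow] at h1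
  have h2 : padicValRat q (q : ℚ) = 1 := padicValRat.self hq.one_lt
  rw [h2] at h1
  have h3 : ((p : ℤ)) ∣ 1 := ⟨_, h1.symm⟩
  have h4 := Int.le_of_dvd one_pos h3
  omega

/-- A `p`-th root of the prime `q` fixed by complex conjugation is moved by an element of the
kernel of any homomorphism from the Galois group to a commutative group. -/
theorem exists_mem_ker_ne {p q : ℕ} (hp : p.Prime) (hp2 : p ≠ 2) (hq : q.Prime) {α : Qb}
    (hα : α ^ p = (q : Qb)) (hc : complexConjugation α = α) {C : Type*} [CommGroup C]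
    (χ : Γ →* C) : ∃ s ∈ χ.ker, s α ≠ α := by
  by_contra hcon
  push Not at hcon
  have hq0 : (q : Qb) ≠ 0 := Nat.cast_ne_zero.mpr hq.ne_zero
  have hα0 : α ≠ 0 := by
    rintro rfl
    rw [zero_pow hp.ne_zero] at hα
    exact hq0 hα.symm
  -- `α` is not rational, so some automorphism moves it
  have hnr : α ∉ Set.range (algebraMap ℚ Qb) := by
    rintro ⟨r, rfl⟩
    have h1 : algebraMap ℚ Qb (r ^ p) = algebraMap ℚ Qb (q : ℚ) := by
      rw [map_pow, hα, map_natCast]
    exact rat_pow_ne_prime hp.two_le hq r ((algebraMap ℚ Qb).injective h1)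
  have hex : ∃ τ : Γ, τ α ≠ α := by
    by_contra hall
    push Not at hall
    have hi1 : Algebra.IsAlgebraic ℚ Qb := AlgebraicClosure.isAlgebraic ℚ
    have hi2 : IsAlgClosure ℚ Qb := AlgebraicClosure.instIsAlgClosure ℚ
    have hi3 : IsGalois ℚ Qb := inferInstance
    exact hnr ((InfiniteGalois.mem_range_algebraMap_iff_fixed α).mpr hall)
  obtain ⟨τ, hτ⟩ := hex
  set ω : Qb := τ α / α with hω
  have hωp : ω ^ p = 1 := by
    rw [hω, div_pow, ← map_pow, hα, map_natCast, div_self hq0]
  have hτα : τ α = ω * α := by rw [hω, div_mul_cancel₀ _ hα0]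
  have hω1 : ω ≠ 1 := by
    intro h1
    rw [h1, one_mul] at hτα
    exact hτ hτα
  have hωc : complexConjugation ω = ω⁻¹ := Roots.complexConjugation_root hp.pos hωp
  have hω0 : ω ≠ 0 := by
    intro h0
    rw [h0, zero_pow hp.ne_zero] at hωp
    exact zero_ne_one hωp
  -- the commutator
  have hw : complexConjugation⁻¹ * τ⁻¹ * complexConjugation * τ ∈ χ.ker := by
    rw [MonoidHom.mem_ker, map_mul, map_mul, map_mul, map_inv, map_inv,
      mul_comm (χ complexConjugation)⁻¹, mul_assoc (χ τ)⁻¹, inv_mul_cancel, mul_one,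
      inv_mul_cancel]
  have h1 := hcon _ hw
  have h2 : complexConjugation (τ α) = τ (complexConjugation α) := by
    have h3 : (complexConjugation⁻¹ * τ⁻¹ * complexConjugation * τ) α
        = complexConjugation⁻¹ (τ⁻¹ (complexConjugation (τ α))) := rfl
    rw [h3] at h1
    have e1 : ∀ (g : Γ) (y : Qb), g (g⁻¹ y) = y := fun g y => by
      rw [← AlgEquiv.mul_apply, mul_inv_cancel, AlgEquiv.one_apply]
    have h4 := congrArg complexConjugation h1
    rw [e1] at h4
    have h5 := congrArg τ h4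
    rw [e1] at h5
    exact h5
  rw [hc, hτα, map_mul, hc, hωc] at h2
  have h5 : ω⁻¹ = ω := mul_right_cancel₀ hα0 h2
  have h6 : ω * ω = 1 := by
    nth_rewrite 1 [← h5]
    exact inv_mul_cancel₀ hω0
  have hodd : p % 2 = 1 := (hp.eq_two_or_odd).resolve_left hp2
  have h7 : ω ^ (p + 1) = 1 := by
    have : p + 1 = 2 * ((p + 1) / 2) := by omega
    rw [this, pow_mul, pow_two, h6, one_pow]
  rw [pow_succ, hωp, one_mul] at h7
  exact hω1 h7

end Commutator

end Fermat.Agent.S41.NonEis.KummerRes
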