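import Fermat.Agent.S41.NonEis.Main
import Fermat.Agent.S41.NonEis.KummerLin
import Fermat.Agent.S41.NonEis.KummerRes

/-!
# The non-Eisenstein prime with a Kummer condition

`E / ℚ` an elliptic curve with integral model `W`, `p` an odd prime with `E[p]` irreducible, `q` a
prime.  For every `M > 0` and every finite set `S` of primes there is a prime `ℓ ∉ S` of good
reduction, `ℓ ≠ p`, `ℓ ≡ 1 [MOD M * p]`, with `a_ℓ(W) ≢ ℓ + 1 (mod p)` **and**
`q ^ ((ℓ - 1) / p) ≠ 1` in `ZMod ℓ` (`q` is not a `p`-th power residue modulo `ℓ`):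
`exists_prime_not_eisenstein_kummer`.

Proof.  Let `α` be a `p`-th root of `q` fixed by complex conjugation, `ζ` a primitive `M p`-th
root of unity, `H = Gal(Qb / ℚ(ζ))`.  If the statement fails, every Frobenius element at a good
prime `ℓ ≡ 1 (mod M p)` which moves `α` is unipotent on `V = E[p]` (`KummerRes` turns "moves `α`"
into the Kummer condition at `ℓ`), so by Frobenius density (generator form, in the field generated
by the `p`-torsion, `ζ` and `α`) every `h ∈ H` moving `α` is unipotent on `V`.  Some `s₀ ∈ H` moves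
`α` (`KummerRes.exists_mem_ker_ne`: `α` is not abelian over `ℚ`).  For `h ∈ H` fixing `α`, the elements `s₀`, `s₀ h`, `s₀² h` move
`α`, hence are unipotent, hence `h` is unipotent (`KummerLin`).  So all of `H` is unipotent on `V`
and the contradiction of `Main.exists_prime_not_eisenstein` applies.
-/

set_option autoImplicit false

namespace Fermat.Agent.S41.NonEis.Kummer

open WeierstrassCurve WeierstrassCurve.Affine WeierstrassCurve.Affine.Point
  Fermat.Agent.S41.NonEis Fermat.Agent.S41.NonEis.Main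

local notation "Qb" => AlgebraicClosure ℚ
local notation "Γ" => (AlgebraicClosure ℚ ≃ₐ[ℚ] AlgebraicClosure ℚ)

/-- **The non-Eisenstein prime with a Kummer condition.** -/
theorem exists_prime_not_eisenstein_kummer (E : WeierstrassCurve ℚ) [E.IsElliptic]
    {W : WeierstrassCurve ℤ} (hW : W.IsIntegralModelOf E) {p : ℕ} (hp : p.Prime) (hp2 : p ≠ 2)
    (hirr : GaloisRepIsIrreducible (K := AlgebraicClosure ℚ) ℚ E p) (M : ℕ) (hM : 0 < M)
    (S : Finset ℕ) {q : ℕ} (hq : q.Prime) :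
    ∃ ℓ : ℕ, ℓ.Prime ∧ ℓ ∉ S ∧ W.IsGoodPrimeFor ℓ ∧ ℓ ≠ p ∧ ℓ ≡ 1 [MOD M * p] ∧
      ¬ (p : ℤ) ∣ W.apOfModel ℓ - (ℓ + 1) ∧ (q : ZMod ℓ) ^ ((ℓ - 1) / p) ≠ 1 := by
  by_contra hcon
  push Not at hcon
  have hpF : Fact p.Prime := ⟨hp⟩
  have hpodd : Odd p := hp.odd_of_ne_two hp2
  have hΔ0 : W.Δ ≠ 0 := Δ_ne_zero E hW
  -- the level `M' = M * p` and a primitive `M'`-th root of unity
  set M' : ℕ := M * p with hM'
  have hM'pos : 0 < M' := Nat.mul_pos hM hp.pos
  have hM'one : 1 < M' := by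
    have := hp.two_le
    calc 1 < p := by omega
      _ ≤ M * p := Nat.le_mul_of_pos_left p hM
  have : NeZero M' := ⟨hM'pos.ne'⟩
  have : Fact (1 < M') := ⟨hM'one⟩
  obtain ⟨ζ, hζ⟩ := HasEnoughRootsOfUnity.exists_primitiveRoot Qb M'
  have hζ1 : ζ ^ M' = 1 := hζ.pow_eq_one
  -- a primitive `p`-th root of unity
  set η : Qb := ζ ^ M with hη
  have hηprim : IsPrimitiveRoot η p := hζ.pow hM'pos hM'
  have hηp : η ^ p = 1 := hηprim.pow_eq_one
  have hη0 : η ≠ 0 := hηprim.ne_zero hp.ne_zero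
  -- a real `p`-th root of `q`
  obtain ⟨α, hα, hcα⟩ := KummerRes.exists_root_fixed hp hp2 q hq.ne_zero
  have hα0 : α ≠ 0 := by
    intro h0
    rw [h0, zero_pow hp.ne_zero] at hα
    exact hq.ne_zero (by exact_mod_cast hα.symm)
  -- the fields
  have hfd : FiniteDimensional ℚ (fieldL E p ζ) := finiteDimensional_fieldL E p hp.pos ζ
  have hζL : ζ ∈ fieldL E p ζ := mem_fieldL_zeta E p ζ
  have hηL : η ∈ fieldL E p ζ := pow_mem hζL M
  have hαint : IsIntegral ℚ α :=
    ((AlgebraicClosure.isAlgebraic ℚ).isAlgebraic α).isIntegral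
  have hfdα : FiniteDimensional ℚ (IntermediateField.adjoin ℚ {α}) :=
    IntermediateField.adjoin.finiteDimensional hαint
  set L : IntermediateField ℚ Qb := fieldL E p ζ ⊔ IntermediateField.adjoin ℚ {α} with hL
  have hfdL : FiniteDimensional ℚ L := IntermediateField.finiteDimensional_sup _ _
  have hle : fieldL E p ζ ≤ L := le_sup_left
  have hαL : α ∈ L :=
    (le_sup_right : IntermediateField.adjoin ℚ {α} ≤ L)
      (IntermediateField.mem_adjoin_simple_self ℚ α)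
  have hζL' : ζ ∈ L := hle hζL
  -- the excluded primes
  set S' : Finset ℕ := S ∪ {2, 3, p, q} ∪ W.Δ.natAbs.primeFactors ∪ M'.primeFactors with hS'def
  have hS' : ∀ ℓ : ℕ, ℓ.Prime → ℓ ∉ S' →
      5 ≤ ℓ ∧ W.IsGoodPrimeFor ℓ ∧ ℓ ≠ p ∧ ¬ ℓ ∣ M' ∧ ℓ ∉ S ∧ ℓ ≠ q := by
    intro ℓ hℓ hmem
    simp only [hS'def, Finset.mem_union, Finset.mem_insert, Finset.mem_singleton,
      Nat.mem_primeFactors, not_or, not_and] at hmem
    obtain ⟨⟨⟨hS0, h2, h3, hp', hq'⟩, hΔ'⟩, hM''⟩ := hmem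
    refine ⟨?_, ?_, hp', ?_, hS0, hq'⟩
    · have h2le := hℓ.two_le
      by_contra hlt
      push Not at hlt
      have h4 : ℓ ≠ 4 := by
        rintro rfl
        exact absurd hℓ (by norm_num)
      omega
    · intro hdvd
      exact hΔ' hℓ (Int.natCast_dvd.mp hdvd) (Int.natAbs_ne_zero.mpr hΔ0)
    · intro hdvd
      exact hM'' hℓ hdvd hM'pos.ne'
  -- the module and the group
  have hfin : Finite (Submodule.torsionBy ℤ (E⁄Qb).Point (p : ℤ)) :=
    Fermat.Agent.Lib.TorsionCard.finite_torsionBy (E⁄Qb) p hp.pos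
  have hnt : Nontrivial (Submodule.torsionBy ℤ (E⁄Qb).Point (p : ℤ)) := hirr.1
  have hcard2 : Nat.card (Submodule.torsionBy ℤ (E⁄Qb).Point (p : ℤ)) = p ^ 2 :=
    Fermat.Agent.Lib.TorsionCard.card_torsionBy (E⁄Qb) p hp.pos
  have hcard : Nat.card (Submodule.torsionBy ℤ (E⁄Qb).Point (p : ℤ)) ≠ p := by
    rw [hcard2]
    intro h
    have h1 : p * p = p * 1 := by rw [mul_one, ← sq]; exact h
    have := Nat.eq_of_mul_eq_mul_left hp.pos h1
    exact hp.one_lt.ne' this
  have hc : ∀ v : Submodule.torsionBy ℤ (E⁄Qb).Point (p : ℤ),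
      complexConjugation • complexConjugation • v = v := by
    intro v
    rw [← mul_smul, complexConjugation_mul_self, one_smul]
  have hℓ0 : ∀ {ℓ : ℕ}, ℓ.Prime → ℓ ≠ p → ((ℓ : ℤ) : ZMod p) ≠ 0 := by
    intro ℓ hℓ hℓp h0
    rw [Int.cast_natCast, ZMod.natCast_eq_zero_iff] at h0
    exact hℓp ((Nat.prime_dvd_prime_iff_eq hp hℓ).mp h0).symm
  -- quadratic relations for all elements
  have hrel : ∀ g : Γ, ∃ t t' d : ZMod p, d ≠ 0 ∧
      (∀ v : Submodule.torsionBy ℤ (E⁄Qb).Point (p : ℤ), g • g • v - t • g • v + d • v = 0) ∧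
      (∀ v : Submodule.torsionBy ℤ (E⁄Qb).Point (p : ℤ),
        (complexConjugation * g) • (complexConjugation * g) • v
          - t' • (complexConjugation * g) • v - d • v = 0) := by
    intro g
    obtain ⟨ℓ, A, s, b, hℓ, hℓS, hA, hs, hb, hsg⟩ :=
      Fermat.Agent.Lib.FrobDensity.exists_frobenius_pow_eq (fieldL E p ζ) S' g
    obtain ⟨ℓ', A', s', b', hℓ', hℓS', hA', hs', hb', hsg'⟩ :=
      Fermat.Agent.Lib.FrobDensity.exists_frobenius_pow_eq (fieldL E p ζ) S'
        (complexConjugation * g)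
    obtain ⟨h5, hgood, hℓp, -, -, -⟩ := hS' ℓ hℓ hℓS
    obtain ⟨h5', hgood', hℓp', -, -, -⟩ := hS' ℓ' hℓ' hℓS'
    obtain ⟨tb, htb⟩ := Group.lucas_smul s (W.apOfModel ℓ) ℓ
      (frobenius_relation_V E p hW hp hℓ h5 hgood hℓp hA s hs) b
    obtain ⟨tb', htb'⟩ := Group.lucas_smul s' (W.apOfModel ℓ') ℓ'
      (frobenius_relation_V E p hW hp hℓ' h5' hgood' hℓp' hA' s' hs') b'
    have hg : ∀ v : Submodule.torsionBy ℤ (E⁄Qb).Point (p : ℤ), (s ^ b) • v = g • v :=
      fun v => smul_eq_of_eqOn E p ζ _ _ hsg v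
    have hg' : ∀ v : Submodule.torsionBy ℤ (E⁄Qb).Point (p : ℤ),
        (s' ^ b') • v = (complexConjugation * g) • v :=
      fun v => smul_eq_of_eqOn E p ζ _ _ hsg' v
    -- the cyclotomic characters
    have hnℓ : ¬ ℓ ∣ p := fun h => hℓp ((Nat.prime_dvd_prime_iff_eq hℓ hp).mp h)
    have hnℓ' : ¬ ℓ' ∣ p := fun h => hℓp' ((Nat.prime_dvd_prime_iff_eq hℓ' hp).mp h)
    have e1 : g η = η ^ (ℓ ^ b) := by
      rw [← hsg η hηL]
      exact Roots.frobenius_pow_root hℓ hA hnℓ hp.pos hs hηp b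
    have e2 : complexConjugation (g η) = η ^ (ℓ' ^ b') := by
      have := hsg' η hηL
      rw [AlgEquiv.mul_apply] at this
      rw [← this]
      exact Roots.frobenius_pow_root hℓ' hA' hnℓ' hp.pos hs' hηp b'
    have e3 : η ^ (ℓ' ^ b' + ℓ ^ b) = 1 := by
      rw [pow_add, ← e2, e1, map_pow, Roots.complexConjugation_root hp.pos hηp, inv_pow,
        inv_mul_cancel₀ (pow_ne_zero _ hη0)]
    have e4 : p ∣ ℓ' ^ b' + ℓ ^ b := (hηprim.pow_eq_one_iff_dvd _).mp e3
    have e5 : (((ℓ' : ℤ) ^ b' : ℤ) : ZMod p) = -(((ℓ : ℤ) ^ b : ℤ) : ZMod p) := by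
      have h0 : ((ℓ' ^ b' + ℓ ^ b : ℕ) : ZMod p) = 0 := (ZMod.natCast_eq_zero_iff _ _).mpr e4
      push_cast at h0 ⊢
      exact eq_neg_of_add_eq_zero_left h0
    refine ⟨(tb : ZMod p), (tb' : ZMod p), (((ℓ : ℤ) ^ b : ℤ) : ZMod p), ?_, ?_, ?_⟩
    · rw [Int.cast_pow]
      exact pow_ne_zero _ (hℓ0 hℓ hℓp)
    · intro v
      have := htb v
      rw [hg, hg] at this
      rw [Int.cast_smul_eq_zsmul, Int.cast_smul_eq_zsmul]
      exact this
    · intro v
      have := htb' v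
      rw [hg', hg'] at this
      rw [sub_eq_add_neg _ ((((ℓ : ℤ) ^ b : ℤ) : ZMod p) • v), ← neg_smul, ← e5,
        Int.cast_smul_eq_zsmul, Int.cast_smul_eq_zsmul]
      exact this
  -- the subgroup fixing `ζ`
  let χ : Γ →* (ZMod M')ˣ := hζ.autToPow ℚ
  have hcomm : ∀ g₁ g₂ : Γ, g₁ * g₂ * g₁⁻¹ * g₂⁻¹ ∈ χ.ker := by
    intro g₁ g₂
    rw [MonoidHom.mem_ker, map_mul, map_mul, map_mul, map_inv, map_inv, mul_comm (χ g₁) (χ g₂),
      mul_inv_cancel_right, mul_inv_cancel]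
  have hkerζ : ∀ h ∈ χ.ker, h ζ = ζ := by
    intro h hh
    have := hζ.autToPow_spec ℚ h
    have hχ : hζ.autToPow ℚ h = 1 := MonoidHom.mem_ker.mp hh
    rw [hχ, Units.val_one, ZMod.val_one, pow_one] at this
    exact this.symm
  have hkerη : ∀ h ∈ χ.ker, h η = η := by
    intro h hh
    rw [hη, map_pow, hkerζ h hh]
  -- elements of the kernel moving `α` are unipotent
  have hmove : ∀ h ∈ χ.ker, h α ≠ α →
      IsUnip (Submodule.torsionBy ℤ (E⁄Qb).Point (p : ℤ)) h := by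
    intro h hh hhα
    obtain ⟨ℓ, A, s, b, k, hℓ, hℓS, hA, hs, hb, hsh, hhs⟩ :=
      Fermat.Agent.Lib.FrobDensity.exists_frobenius_generator L S' h
    obtain ⟨h5, hgood, hℓp, hℓM, hℓS0, hℓq⟩ := hS' ℓ hℓ hℓS
    have hhζ : h ζ = ζ := hkerζ h hh
    have hhk : ∀ j : ℕ, (h ^ j) ζ = ζ := by
      intro j
      induction j with
      | zero => simp
      | succ j ih => rw [pow_succ, AlgEquiv.mul_apply, hhζ, ih]
    have hsζ : s ζ = ζ := by rw [← hhs ζ hζL']; exact hhk k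
    have hζℓ : ζ ^ ℓ = ζ := (Roots.frobenius_root hℓ hA hℓM hM'pos hs hζ1).symm.trans hsζ
    have hdvd : M' ∣ ℓ - 1 := by
      rw [← hζ.pow_eq_one_iff_dvd]
      have hζ0 : ζ ≠ 0 := hζ.ne_zero hM'pos.ne'
      have : ζ ^ (ℓ - 1) * ζ = 1 * ζ := by
        rw [← pow_succ, Nat.sub_add_cancel hℓ.one_le, hζℓ, one_mul]
      exact mul_right_cancel₀ hζ0 this
    have hmodM : ℓ ≡ 1 [MOD M'] := ((Nat.modEq_iff_dvd' hℓ.one_le).mpr hdvd).symm
    have hpdvdN : p ∣ ℓ - 1 := dvd_trans (Dvd.intro_left _ rfl) hdvd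
    have hpdvd : (p : ℤ) ∣ (ℓ : ℤ) - 1 := by
      have h2 := Int.natCast_dvd_natCast.mpr hpdvdN
      rwa [Nat.cast_sub hℓ.one_le, Nat.cast_one] at h2
    -- the Frobenius element moves `α`
    have hsα : s α ≠ α := by
      intro hsα
      apply hhα
      rw [← hsh α hαL]
      have : ∀ j : ℕ, (s ^ j) α = α := by
        intro j
        induction j with
        | zero => simp
        | succ j ih => rw [pow_succ, AlgEquiv.mul_apply, hsα, ih]
      exact this b
    have hnℓp : ¬ ℓ ∣ p := fun h => hℓp ((Nat.prime_dvd_prime_iff_eq hℓ hp).mp h)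
    have hnℓq : ¬ ℓ ∣ q := fun h => hℓq ((Nat.prime_dvd_prime_iff_eq hℓ hq).mp h)
    have hkum : (q : ZMod ℓ) ^ ((ℓ - 1) / p) ≠ 1 :=
      KummerRes.pow_ne_one_of_frobenius_ne hℓ hA hp.pos hnℓp hnℓq hpdvdN hs hα hsα
    have hap : (p : ℤ) ∣ W.apOfModel ℓ - (ℓ + 1) := by
      by_contra hnd
      exact hkum (hcon ℓ hℓ hℓS0 hgood hℓp hmodM hnd)
    have hrelV := frobenius_relation_V E p hW hp hℓ h5 hgood hℓp hA s hs
    have h2 : IsUnip (Submodule.torsionBy ℤ (E⁄Qb).Point (p : ℤ)) s := by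
      intro w
      have e := hrelV w
      have ha : W.apOfModel ℓ • s • w = (2 : ℤ) • s • w := by
        have hd : (p : ℤ) ∣ W.apOfModel ℓ - 2 := by
          have := dvd_add hap hpdvd
          have e' : W.apOfModel ℓ - ((ℓ : ℤ) + 1) + ((ℓ : ℤ) - 1) = W.apOfModel ℓ - 2 := by ring
          rwa [e'] at this
        have := zsmul_eq_zero_of_dvd E p hd (s • w)
        rw [sub_smul] at this
        exact sub_eq_zero.mp this
      have hl : (ℓ : ℤ) • w = w := by
        have := zsmul_eq_zero_of_dvd E p hpdvd w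
        rw [sub_smul, one_smul] at this
        exact sub_eq_zero.mp this
      rw [ha, hl] at e
      exact e
    have h4 : ∀ w : Submodule.torsionBy ℤ (E⁄Qb).Point (p : ℤ), (s ^ b) • w = h • w :=
      fun w => smul_eq_of_eqOn E p ζ _ _ (fun x hx => hsh x (hle hx)) w
    exact isUnip_congr h4 (isUnip_pow h2 b)
  -- an element of the kernel moving `α`
  obtain ⟨s₀, hs₀, hs₀α⟩ := KummerRes.exists_mem_ker_ne hp hp2 hq hα hcα χ
  -- all elements of the kernel are unipotent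
  have hall : ∀ h ∈ χ.ker, IsUnip (Submodule.torsionBy ℤ (E⁄Qb).Point (p : ℤ)) h := by
    intro h hh
    by_cases hhα : h α = α
    · refine isUnip_of_coset hcard2 s₀ h (hmove s₀ hs₀ hs₀α)
        (hmove (s₀ * h) (mul_mem hs₀ hh) ?_) (hmove (s₀ * s₀ * h) (mul_mem (mul_mem hs₀ hs₀) hh) ?_)
      · rw [AlgEquiv.mul_apply, hhα]
        exact hs₀α
      · rw [AlgEquiv.mul_apply, AlgEquiv.mul_apply, hhα]
        -- `s₀ α = ω α` with `ω` a `p`-th root of unity fixed by `s₀`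
        set ω : Qb := s₀ α / α with hω
        have hωp : ω ^ p = 1 := by
          rw [hω, div_pow, ← map_pow, hα, map_natCast, div_self]
          rw [← hα]
          exact pow_ne_zero _ hα0
        have hs₀α' : s₀ α = ω * α := by rw [hω, div_mul_cancel₀ _ hα0]
        obtain ⟨i, -, hi⟩ := hηprim.eq_pow_of_pow_eq_one hωp
        have hs₀ω : s₀ ω = ω := by rw [← hi, map_pow, hkerη s₀ hs₀]
        intro h2
        rw [hs₀α', map_mul, hs₀ω, hs₀α'] at h2
        have h3 : ω * ω = 1 := by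
          have h4 : ω * ω * α = 1 * α := by rw [one_mul, mul_assoc]; exact h2
          exact mul_right_cancel₀ hα0 h4
        obtain ⟨m, hm⟩ := hpodd
        have h5 : ω = 1 := by
          have h6 : ω ^ (2 * m) = 1 := by rw [pow_mul, sq, h3, one_pow]
          rw [hm, pow_succ, h6, one_mul] at hωp
          exact hωp
        apply hs₀α
        rw [hs₀α', h5, one_mul]
    · exact hmove h hh hhα
  have hunip : ∀ h ∈ χ.ker, ∀ v : Submodule.torsionBy ℤ (E⁄Qb).Point (p : ℤ),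
      (h ^ p) • v = v := fun h hh v =>
    pow_smul_eq_self_of_isUnip (hall h hh) p (fun w => Group.nsmul_p_eq_zero w) v
  exact Group.false_of_unipotent hp2 hirr.2 hcard complexConjugation hc hrel χ.ker hcomm hunip

end Fermat.Agent.S41.NonEis.Kummer
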