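import Mathlib
import Fermat.Agent.Lib.KerRedAny
import Fermat.Agent.S05.SameRed

/-!
# Reduction of prime-to-residue-characteristic torsion at a place of good reduction

`K` a field, `A` a valuation subring of `K` with residue field `k`, `W` a Weierstrass curve with
coefficients in `A` and unit discriminant.  `WK = W ⊗ K`, `Wk = W ⊗ k`.

* `red : WK(K) → Wk(k)` : coordinatewise reduction (junk value `0` at non-integral points).
* `torsion_mem` : a point killed by `n` with `v n = 1` has coordinates in `A`.
* `red_injOn` : `red` is injective on such points.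
* `red_add` : `red` is additive on such points.
* `redHom` : the resulting injective homomorphism from the `n`-torsion subgroup.
-/

set_option autoImplicit false

namespace Fermat.Agent.S41.NonEis.Reduce

open WeierstrassCurve WeierstrassCurve.Affine

variable {K : Type*} [Field K] (A : ValuationSubring K) (W : WeierstrassCurve A)

/-- The curve over the fraction field. -/
abbrev WK : Affine K := (W.map A.subtype).toAffine

/-- The reduced curve over the residue field. -/
abbrev Wk : Affine (IsLocalRing.ResidueField A) := (W.map (IsLocalRing.residue A)).toAffine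

lemma subtype_injective : Function.Injective (A.subtype : A →+* K) := Subtype.val_injective

/-- Congruence for affine points. -/
lemma some_congr {R : Type*} [CommRing R] {W' : Affine R} {x x' y y' : R}
    (h : W'.Nonsingular x y) (h' : W'.Nonsingular x' y') (hx : x = x') (hy : y = y') :
    Point.some x y h = Point.some x' y' h' := by
  subst hx hy; rfl

lemma residue_eq_zero_iff_val (a : A) :
    IsLocalRing.residue A a = 0 ↔ A.valuation (a : K) < 1 := by
  rw [IsLocalRing.residue_eq_zero_iff, A.valuation_lt_one_iff]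

lemma residue_ne_zero_iff_isUnit (a : A) : IsLocalRing.residue A a ≠ 0 ↔ IsUnit a := by
  rw [Ne, IsLocalRing.residue_eq_zero_iff, IsLocalRing.notMem_maximalIdeal]

/-- A quotient `N / D` of elements of `A` with `D` a unit modulo the maximal ideal lies in `A`
and reduces to the quotient of the reductions. -/
lemma exists_div (N D : A) (hD : IsLocalRing.residue A D ≠ 0) :
    ∃ L : A, (L : K) = (N : K) / (D : K) ∧
      IsLocalRing.residue A L = IsLocalRing.residue A N / IsLocalRing.residue A D := by
  obtain ⟨u, hu⟩ := (residue_ne_zero_iff_isUnit A D).mp hD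
  refine ⟨N * ((u⁻¹ : Aˣ) : A), ?_, ?_⟩
  · have h1 : ((u : A) : K) * (((u⁻¹ : Aˣ) : A) : K) = 1 := by
      have h0 : ((u : A) * ((u⁻¹ : Aˣ) : A) : A) = 1 := u.mul_inv
      have := congrArg A.subtype h0
      rwa [map_mul, map_one] at this
    have hu0 : ((u : A) : K) ≠ 0 := left_ne_zero_of_mul_eq_one h1
    rw [← hu]
    push_cast
    rw [eq_div_iff hu0, mul_assoc, mul_comm (((u⁻¹ : Aˣ) : A) : K), h1, mul_one]
  · rw [map_mul, map_units_inv, hu, div_eq_mul_inv]

section torsion

lemma val_a₁ : A.valuation (WK A W).a₁ ≤ 1 := A.valuation_le_one W.a₁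
lemma val_a₂ : A.valuation (WK A W).a₂ ≤ 1 := A.valuation_le_one W.a₂
lemma val_a₃ : A.valuation (WK A W).a₃ ≤ 1 := A.valuation_le_one W.a₃
lemma val_a₄ : A.valuation (WK A W).a₄ ≤ 1 := A.valuation_le_one W.a₄
lemma val_a₆ : A.valuation (WK A W).a₆ ≤ 1 := A.valuation_le_one W.a₆

variable [DecidableEq K]

/-- A point killed by `n` with `v n = 1` has integral coordinates. -/
theorem torsion_mem {n : ℕ} (hn : A.valuation (n : K) = 1) {x y : K}
    (h : (WK A W).Nonsingular x y) (hP : n • Point.some x y h = 0) : x ∈ A ∧ y ∈ A := by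
  have hx : A.valuation x ≤ 1 :=
    Fermat.Agent.Lib.KerRedAny.torsion_integral A.valuation (WK A W) (val_a₁ A W) (val_a₂ A W)
      (val_a₃ A W) (val_a₄ A W) (val_a₆ A W) n hn _ hP x y h rfl
  have hy : A.valuation y ≤ 1 :=
    Fermat.Agent.S05.SameRed.val_y_le_one A.valuation (WK A W) (val_a₁ A W) (val_a₂ A W)
      (val_a₃ A W) (val_a₄ A W) (val_a₆ A W) h.1 hx
  exact ⟨(A.valuation_le_one_iff x).mp hx, (A.valuation_le_one_iff y).mp hy⟩

end torsion

section red

variable (hΔ : IsUnit W.Δ)

include hΔ in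
lemma Wk_Δ_ne_zero : (Wk A W).Δ ≠ 0 := by
  rw [WeierstrassCurve.map_Δ]
  exact (residue_ne_zero_iff_isUnit A _).mpr hΔ

include hΔ in
/-- An integral point reduces to a nonsingular point. -/
lemma nonsingular_red {x y : A} (h : (WK A W).Nonsingular (x : K) (y : K)) :
    (Wk A W).Nonsingular (IsLocalRing.residue A x) (IsLocalRing.residue A y) := by
  have hE : W.toAffine.Equation x y :=
    (Affine.map_equation W.toAffine (subtype_injective A) x y).mp h.1
  exact (Affine.equation_iff_nonsingular_of_Δ_ne_zero (Wk_Δ_ne_zero A W hΔ)).mp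
    (hE.map (IsLocalRing.residue A))

open Classical in
/-- Coordinatewise reduction of points (value `0` at non-integral points). -/
noncomputable def red : (WK A W).Point → (Wk A W).Point
  | .zero => 0
  | .some x y h =>
    if hxy : x ∈ A ∧ y ∈ A then
      .some (IsLocalRing.residue A ⟨x, hxy.1⟩) (IsLocalRing.residue A ⟨y, hxy.2⟩)
        (nonsingular_red A W hΔ (x := ⟨x, hxy.1⟩) (y := ⟨y, hxy.2⟩) h)
    else 0

@[simp] lemma red_zero : red A W hΔ 0 = 0 := rfl

open Classical in
lemma red_some (x y : A) (h : (WK A W).Nonsingular (x : K) (y : K)) :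
    red A W hΔ (.some (x : K) (y : K) h) =
      .some (IsLocalRing.residue A x) (IsLocalRing.residue A y) (nonsingular_red A W hΔ h) := by
  have hxy : (x : K) ∈ A ∧ (y : K) ∈ A := ⟨x.2, y.2⟩
  change dite _ _ _ = _
  rw [dif_pos hxy]

lemma red_some_ne_zero (x y : A) (h : (WK A W).Nonsingular (x : K) (y : K)) :
    red A W hΔ (.some (x : K) (y : K) h) ≠ 0 := by
  rw [red_some]
  exact Point.some_ne_zero _

/-- Reduction commutes with negation on integral points. -/
lemma red_neg_some (x y : A) (h : (WK A W).Nonsingular (x : K) (y : K)) :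
    red A W hΔ (-(.some (x : K) (y : K) h)) = -red A W hΔ (.some (x : K) (y : K) h) := by
  rw [red_some, Point.neg_some, Point.neg_some]
  have e : (WK A W).negY (x : K) (y : K) = ((W.toAffine.negY x y : A) : K) :=
    Affine.map_negY (W' := W.toAffine) A.subtype x y
  have h' : (WK A W).Nonsingular (x : K) ((W.toAffine.negY x y : A) : K) := by
    rw [← e]; exact (Affine.nonsingular_neg (W' := WK A W) (x := (x : K)) (y := (y : K))).mpr h
  have key : Point.some (W' := WK A W) (x : K) ((WK A W).negY (x : K) (y : K))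
      ((Affine.nonsingular_neg (W' := WK A W) (x := (x : K)) (y := (y : K))).mpr h) =
      Point.some (W' := WK A W) (x : K) ((W.toAffine.negY x y : A) : K) h' :=
    some_congr _ _ rfl e
  rw [key, red_some]
  exact some_congr _ _ rfl (Affine.map_negY (W' := W.toAffine) (IsLocalRing.residue A) x y).symm

end red

section maps

variable {R F : Type*} [CommRing R] [Field F] (f : R →+* F) (W' : WeierstrassCurve R)

lemma map_dblNum (x y : R) :
    3 * f x ^ 2 + 2 * (W'.map f).a₂ * f x + (W'.map f).a₄ - (W'.map f).a₁ * f y =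
      f (3 * x ^ 2 + 2 * W'.a₂ * x + W'.a₄ - W'.a₁ * y) := by
  simp only [WeierstrassCurve.map_a₁, WeierstrassCurve.map_a₂, WeierstrassCurve.map_a₄, map_sub,
    map_add, map_mul, map_pow, map_ofNat]

lemma map_dblDen (x y : R) :
    f y - (W'.map f).toAffine.negY (f x) (f y) = f (y - W'.toAffine.negY x y) := by
  rw [Affine.map_negY, map_sub]

end maps

section inj

variable (hΔ : IsUnit W.Δ)

include hΔ in
/-- The nonsingularity hypothesis of `same_red_sub` at an integral point. -/
lemma hns_of_red {x y : A} (h : (WK A W).Nonsingular (x : K) (y : K)) :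
    ¬ (A.valuation (2 * (y : K) + (WK A W).a₁ * (x : K) + (WK A W).a₃) < 1 ∧
      A.valuation (3 * (x : K) ^ 2 + 2 * (WK A W).a₂ * (x : K) + (WK A W).a₄
        - (WK A W).a₁ * (y : K)) < 1) := by
  rintro ⟨h1, h2⟩
  have hns := nonsingular_red A W hΔ h
  rw [Affine.nonsingular_iff] at hns
  have c1 : ((2 * y + W.a₁ * x + W.a₃ : A) : K) =
      2 * (y : K) + (WK A W).a₁ * (x : K) + (WK A W).a₃ := by
    push_cast; rfl
  have c2 : ((3 * x ^ 2 + 2 * W.a₂ * x + W.a₄ - W.a₁ * y : A) : K) =
      3 * (x : K) ^ 2 + 2 * (WK A W).a₂ * (x : K) + (WK A W).a₄ - (WK A W).a₁ * (y : K) := by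
    push_cast; rfl
  have e1 : IsLocalRing.residue A (2 * y + W.a₁ * x + W.a₃) = 0 :=
    (residue_eq_zero_iff_val A _).mpr (by rw [c1]; exact h1)
  have e2 : IsLocalRing.residue A (3 * x ^ 2 + 2 * W.a₂ * x + W.a₄ - W.a₁ * y) = 0 :=
    (residue_eq_zero_iff_val A _).mpr (by rw [c2]; exact h2)
  simp only [map_sub, map_add, map_mul, map_pow, map_ofNat] at e1 e2
  rcases hns.2 with h3 | h3
  · apply h3
    simp only [WeierstrassCurve.map_a₁, WeierstrassCurve.map_a₂, WeierstrassCurve.map_a₄]
    linear_combination -e2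
  · apply h3
    simp only [WeierstrassCurve.map_a₁, WeierstrassCurve.map_a₃]
    linear_combination e1

variable [DecidableEq K]

/-- Reduction is injective on points killed by `n`, `v n = 1`. -/
theorem red_injOn {n : ℕ} (hn : A.valuation (n : K) = 1) {P Q : (WK A W).Point}
    (hP : n • P = 0) (hQ : n • Q = 0) (h : red A W hΔ P = red A W hΔ Q) : P = Q := by
  rcases P with _ | ⟨x1, y1, h1⟩
  · rcases Q with _ | ⟨x2, y2, h2⟩
    · rfl
    · obtain ⟨hx2, hy2⟩ := torsion_mem A W hn h2 hQ
      exact absurd h.symm (red_some_ne_zero A W hΔ ⟨x2, hx2⟩ ⟨y2, hy2⟩ h2)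
  · obtain ⟨hx1, hy1⟩ := torsion_mem A W hn h1 hP
    rcases Q with _ | ⟨x2, y2, h2⟩
    · exact absurd h (red_some_ne_zero A W hΔ ⟨x1, hx1⟩ ⟨y1, hy1⟩ h1)
    · obtain ⟨hx2, hy2⟩ := torsion_mem A W hn h2 hQ
      have hr1 := red_some A W hΔ ⟨x1, hx1⟩ ⟨y1, hy1⟩ h1
      have hr2 := red_some A W hΔ ⟨x2, hx2⟩ ⟨y2, hy2⟩ h2
      have h' := hr1.symm.trans (h.trans hr2)
      simp only [Point.some.injEq] at h'
      obtain ⟨ex, ey⟩ := h'
      by_contra hne
      have hne' : ¬ (x1 = x2 ∧ y1 = y2) := fun hh => hne (some_congr _ _ hh.1 hh.2)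
      have hvx : A.valuation (x1 - x2) < 1 := by
        have : IsLocalRing.residue A ((⟨x1, hx1⟩ : A) - ⟨x2, hx2⟩) = 0 := by
          rw [map_sub, ex, sub_self]
        exact (residue_eq_zero_iff_val A _).mp this
      have hvy : A.valuation (y1 - y2) < 1 := by
        have : IsLocalRing.residue A ((⟨y1, hy1⟩ : A) - ⟨y2, hy2⟩) = 0 := by
          rw [map_sub, ey, sub_self]
        exact (residue_eq_zero_iff_val A _).mp this
      obtain ⟨x3, y3, h3, hsub, hx3⟩ := Fermat.Agent.S05.SameRed.same_red_sub A.valuation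
        (WK A W) (val_a₁ A W) (val_a₂ A W) h1 h2 ((A.valuation_le_one_iff x2).mpr hx2) hvx hvy
        (hns_of_red A W hΔ (x := ⟨x2, hx2⟩) (y := ⟨y2, hy2⟩) h2) hne'
      have h3' : n • Point.some x3 y3 h3 = 0 := by rw [← hsub, smul_sub, hP, hQ, sub_zero]
      have hmem := (torsion_mem A W hn h3 h3').1
      exact absurd ((A.valuation_le_one_iff x3).mpr hmem) (not_le.mpr hx3)

variable [DecidableEq (IsLocalRing.ResidueField A)]

/-- Additivity of the reduction on integral torsion points (affine case). -/
theorem red_add_some {n : ℕ} (hn : A.valuation (n : K) = 1) (x1 y1 x2 y2 : A)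
    (h1 : (WK A W).Nonsingular (x1 : K) (y1 : K)) (h2 : (WK A W).Nonsingular (x2 : K) (y2 : K))
    (hP : n • Point.some (x1 : K) (y1 : K) h1 = 0)
    (hQ : n • Point.some (x2 : K) (y2 : K) h2 = 0) :
    red A W hΔ (Point.some _ _ h1 + Point.some _ _ h2) =
      red A W hΔ (Point.some _ _ h1) + red A W hΔ (Point.some _ _ h2) := by
  rw [red_some A W hΔ x1 y1 h1, red_some A W hΔ x2 y2 h2]
  by_cases hxy : (x1 : K) = x2 ∧ (y1 : K) = (WK A W).negY x2 y2
  · rw [Point.add_of_Y_eq hxy.1 hxy.2, red_zero]
    symm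
    apply Point.add_of_Y_eq
    · exact congrArg (IsLocalRing.residue A) (Subtype.ext hxy.1)
    · have e : y1 = W.toAffine.negY x2 y2 :=
        Subtype.ext (hxy.2.trans (Affine.map_negY (W' := W.toAffine) A.subtype x2 y2))
      rw [e]
      exact (Affine.map_negY (W' := W.toAffine) (IsLocalRing.residue A) x2 y2).symm
  · have hxy' : ¬ (IsLocalRing.residue A x1 = IsLocalRing.residue A x2 ∧
        IsLocalRing.residue A y1 =
          (Wk A W).negY (IsLocalRing.residue A x2) (IsLocalRing.residue A y2)) := by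
      rintro ⟨e1, e2⟩
      have hnegQ : n • (-(Point.some (x2 : K) (y2 : K) h2)) = 0 := by rw [smul_neg, hQ, neg_zero]
      have hh := red_injOn A W hΔ hn hP hnegQ (by
        rw [red_neg_some, red_some, red_some, Point.neg_some]
        exact some_congr _ _ e1 e2)
      rw [Point.neg_some] at hh
      simp only [Point.some.injEq] at hh
      exact hxy hh
    obtain ⟨L, hL, hL'⟩ : ∃ L : A, (L : K) = (WK A W).slope x1 x2 y1 y2 ∧
        IsLocalRing.residue A L = (Wk A W).slope (IsLocalRing.residue A x1)
          (IsLocalRing.residue A x2) (IsLocalRing.residue A y1) (IsLocalRing.residue A y2) := by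
      by_cases hx : (x1 : K) = x2
      · have hy : (y1 : K) ≠ (WK A W).negY x2 y2 := fun h => hxy ⟨hx, h⟩
        have hx' : IsLocalRing.residue A x1 = IsLocalRing.residue A x2 :=
          congrArg _ (Subtype.ext hx)
        have hy' : IsLocalRing.residue A y1 ≠
            (Wk A W).negY (IsLocalRing.residue A x2) (IsLocalRing.residue A y2) :=
          fun h => hxy' ⟨hx', h⟩
        rw [Affine.slope_of_Y_ne hx hy, Affine.slope_of_Y_ne hx' hy']
        have hD : IsLocalRing.residue A (y1 - W.toAffine.negY x1 y1) ≠ 0 := by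
          rw [← map_dblDen]
          intro h0
          have h0' := sub_eq_zero.mp h0
          rcases Affine.Y_eq_of_X_eq (nonsingular_red A W hΔ h1).1 (nonsingular_red A W hΔ h2).1
            hx' with h | h
          · apply hy'
            rw [← h, ← hx']
            exact h0'
          · exact hy' h
        obtain ⟨L, hL, hL'⟩ := exists_div A (3 * x1 ^ 2 + 2 * W.a₂ * x1 + W.a₄ - W.a₁ * y1)
          (y1 - W.toAffine.negY x1 y1) hD
        refine ⟨L, ?_, ?_⟩
        · rw [hL]
          exact congrArg₂ (· / ·) (map_dblNum A.subtype W x1 y1).symm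
            (map_dblDen A.subtype W x1 y1).symm
        · rw [hL']
          exact congrArg₂ (· / ·) (map_dblNum (IsLocalRing.residue A) W x1 y1).symm
            (map_dblDen (IsLocalRing.residue A) W x1 y1).symm
      · have hx' : IsLocalRing.residue A x1 ≠ IsLocalRing.residue A x2 := by
          intro e
          rcases Affine.Y_eq_of_X_eq (nonsingular_red A W hΔ h1).1 (nonsingular_red A W hΔ h2).1
            e with h | h
          · have hh := red_injOn A W hΔ hn hP hQ (by
              rw [red_some, red_some]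
              exact some_congr _ _ e h)
            simp only [Point.some.injEq] at hh
            exact hx hh.1
          · exact hxy' ⟨e, h⟩
        rw [Affine.slope_of_X_ne hx, Affine.slope_of_X_ne hx']
        have hD : IsLocalRing.residue A (x1 - x2) ≠ 0 := by
          rw [map_sub]; exact sub_ne_zero.mpr hx'
        obtain ⟨L, hL, hL'⟩ := exists_div A (y1 - y2) (x1 - x2) hD
        exact ⟨L, hL, by rw [hL', map_sub, map_sub]⟩
    rw [Point.add_some hxy, Point.add_some hxy']
    have eX : (WK A W).addX x1 x2 ((WK A W).slope x1 x2 y1 y2) =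
        ((W.toAffine.addX x1 x2 L : A) : K) := by
      rw [← hL]; exact Affine.map_addX (W' := W.toAffine) A.subtype x1 x2 L
    have eY : (WK A W).addY x1 x2 y1 ((WK A W).slope x1 x2 y1 y2) =
        ((W.toAffine.addY x1 x2 y1 L : A) : K) := by
      rw [← hL]; exact Affine.map_addY (W' := W.toAffine) A.subtype x1 y1 x2 L
    have hns3 : (WK A W).Nonsingular ((W.toAffine.addX x1 x2 L : A) : K)
        ((W.toAffine.addY x1 x2 y1 L : A) : K) := by
      rw [← eX, ← eY]; exact Affine.nonsingular_add h1 h2 hxy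
    rw [some_congr _ hns3 eX eY, red_some]
    apply some_congr
    · rw [← hL']; exact (Affine.map_addX (W' := W.toAffine) (IsLocalRing.residue A) x1 x2 L).symm
    · rw [← hL']
      exact (Affine.map_addY (W' := W.toAffine) (IsLocalRing.residue A) x1 y1 x2 L).symm

/-- Reduction is additive on points killed by `n`, `v n = 1`. -/
theorem red_add {n : ℕ} (hn : A.valuation (n : K) = 1) {P Q : (WK A W).Point}
    (hP : n • P = 0) (hQ : n • Q = 0) :
    red A W hΔ (P + Q) = red A W hΔ P + red A W hΔ Q := by
  rcases P with _ | ⟨x1, y1, h1⟩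
  · change red A W hΔ (0 + Q) = 0 + red A W hΔ Q
    rw [zero_add, zero_add]
  rcases Q with _ | ⟨x2, y2, h2⟩
  · change red A W hΔ (_ + 0) = _ + 0
    rw [add_zero, add_zero]
  obtain ⟨hx1, hy1⟩ := torsion_mem A W hn h1 hP
  obtain ⟨hx2, hy2⟩ := torsion_mem A W hn h2 hQ
  exact red_add_some A W hΔ hn ⟨x1, hx1⟩ ⟨y1, hy1⟩ ⟨x2, hx2⟩ ⟨y2, hy2⟩ h1 h2 hP hQ

/-- The subgroup of points killed by `n`. -/
abbrev tors (n : ℕ) : AddSubgroup (WK A W).Point :=
  (nsmulAddMonoidHom (α := (WK A W).Point) n).ker

omit [DecidableEq (IsLocalRing.ResidueField A)] in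
lemma mem_tors {n : ℕ} {P : (WK A W).Point} : P ∈ tors A W n ↔ n • P = 0 := Iff.rfl

/-- The reduction homomorphism on the `n`-torsion, `v n = 1`. -/
noncomputable def redHom {n : ℕ} (hn : A.valuation (n : K) = 1) :
    tors A W n →+ (Wk A W).Point :=
  AddMonoidHom.mk' (fun P => red A W hΔ P.1) (fun P Q => red_add A W hΔ hn P.2 Q.2)

lemma redHom_apply {n : ℕ} (hn : A.valuation (n : K) = 1) (P : tors A W n) :
    redHom A W hΔ hn P = red A W hΔ P.1 := rfl

theorem redHom_injective {n : ℕ} (hn : A.valuation (n : K) = 1) :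
    Function.Injective (redHom A W hΔ hn) := fun P Q h =>
  Subtype.ext (red_injOn A W hΔ hn P.2 Q.2 h)

end inj

end Fermat.Agent.S41.NonEis.Reduce
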