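import Mathlib
import Fermat.Prelude.Def_FLTPrelim_Modularity
import Fermat.Prelude.Def_EllipticCurve_FrobeniusTrace
import Fermat.Agent.S41.NonEis.Reduce
import Fermat.Agent.S41.NonEis.Basics
import Fermat.Agent.S52.Glue.Short
import Fermat.Agent.S52.Tr.SpecFinal

/-!
# The Frobenius relation on prime-to-`ℓ` torsion of an elliptic curve over `ℚ`

`E / ℚ` an elliptic curve with integral model `W`, `ℓ ≥ 5` a prime of good reduction, `A` a place
of `Qb = AlgebraicClosure ℚ` over `ℓ`, `σ` a Frobenius element at `A`, `n` prime to `ℓ`.  Then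

  `σ • σ • P - a_ℓ(W) • σ • P + ℓ • P = 0`  for every `P ∈ E(Qb)` with `n • P = 0`

(`frobenius_relation`).  Proof: pass to the short model, reduce the `n`-torsion injectively and
additively modulo the maximal ideal of `A` (`Reduce`), and use the Frobenius relation on the
reduced curve over the algebraically closed residue field (brick (Tr) of S52).
-/

set_option autoImplicit false

namespace Fermat.Agent.S41.NonEis.FrobRel

open WeierstrassCurve WeierstrassCurve.Affine Fermat.Agent.S05.VarChange Fermat.Agent.S52.Tr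
  Fermat.Agent.S41.NonEis

local notation "Qb" => AlgebraicClosure ℚ

section Abstract

/-- Abstract core: an injective reduction `ρ` on a subgroup `T`, compatible with `s` upstairs
and `φ` downstairs, transports the relation `φ² - t φ + l = 0` to `s² - t s + l = 0` on `T`. -/
theorem rel_of_reduction {G G' : Type*} [AddCommGroup G] [AddCommGroup G'] (T : AddSubgroup G)
    (ρ : T →+ G') (hρ : Function.Injective ρ) (φ : G' →+ G') (t l : ℤ)
    (hφ : ∀ Q, φ (φ Q) - t • φ Q + l • Q = 0) (s : G →+ G) (hsT : ∀ P ∈ T, s P ∈ T)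
    (hs : ∀ (P : G) (hP : P ∈ T), ρ ⟨s P, hsT P hP⟩ = φ (ρ ⟨P, hP⟩)) :
    ∀ P ∈ T, s (s P) - t • s P + l • P = 0 := by
  intro P hP
  have h1 : ρ (⟨s (s P), hsT _ (hsT P hP)⟩ - t • ⟨s P, hsT P hP⟩ + l • ⟨P, hP⟩) = 0 := by
    rw [map_add, map_sub, map_zsmul, map_zsmul, hs (s P) (hsT P hP), hs P hP]
    exact hφ _
  have h2 := hρ (h1.trans (map_zero ρ).symm)
  have h3 := congrArg (fun q : T => (q : G)) h2
  simpa using h3

end Abstract

section Packages

variable {K : Type*} [Field K] [DecidableEq K] (A : ValuationSubring K)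
  [DecidableEq (IsLocalRing.ResidueField A)]

/-- The reduction homomorphism on the `n`-torsion of any curve equal to `WK A WA`. -/
theorem exists_red (WA : WeierstrassCurve A) (hΔ : IsUnit WA.Δ) {n : ℕ}
    (hn : A.valuation (n : K) = 1) (V : Affine K) (hV : V = Reduce.WK A WA) :
    ∃ ρ : (nsmulAddMonoidHom (α := V.Point) n).ker →+ (Reduce.Wk A WA).Point,
      Function.Injective ρ ∧
      ∀ (x y : K) (h : V.Nonsingular x y) (hP : n • Point.some x y h = 0),
        ∃ (hx : x ∈ A) (hy : y ∈ A)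
          (h' : (Reduce.Wk A WA).Nonsingular (IsLocalRing.residue A ⟨x, hx⟩)
            (IsLocalRing.residue A ⟨y, hy⟩)),
          ρ ⟨Point.some x y h, hP⟩ = Point.some _ _ h' := by
  subst hV
  refine ⟨Reduce.redHom A WA hΔ hn, Reduce.redHom_injective A WA hΔ hn, ?_⟩
  intro x y h hP
  obtain ⟨hx, hy⟩ := Reduce.torsion_mem A WA hn h hP
  exact ⟨hx, hy, _, Reduce.red_some A WA hΔ ⟨x, hx⟩ ⟨y, hy⟩ h⟩

/-- The Frobenius endomorphism and its quadratic relation on any curve equal to a `shortBar`. -/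
theorem exists_frob (ℓ : ℕ) [Fact ℓ.Prime] (k : Type) [Field k] [DecidableEq k]
    [Algebra (ZMod ℓ) k] [IsAlgClosed k] (hℓ2 : ℓ ≠ 2) (a b : ZMod ℓ)
    (hΔ : 4 * a ^ 3 + 27 * b ^ 2 ≠ 0) (V : Affine k) (hV : V = Consumer.shortBar ℓ k a b) :
    ∃ φ : V.Point →+ V.Point,
      (∀ (x y : k) (h : V.Nonsingular x y), ∃ h' : V.Nonsingular (x ^ ℓ) (y ^ ℓ),
        φ (.some x y h) = .some (x ^ ℓ) (y ^ ℓ) h') ∧
      ∀ P : V.Point, φ (φ P) - (shortCurve a b).traceOfFrobenius • φ P + (ℓ : ℤ) • P = 0 := by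
  subst hV
  exact ⟨Consumer.frobK ℓ k a b, fun x y h => ⟨_, Consumer.frobK_some ℓ k a b h⟩,
    SpecFinal.trStatement' ℓ k hℓ2 a b hΔ⟩

end Packages

section ShortModel

/-- The short model `y² = x³ - 27 c₄ x - 54 c₆` over `ℤ`. -/
def shortZ (W : WeierstrassCurve ℤ) : WeierstrassCurve ℤ :=
  ⟨0, 0, 0, -27 * W.c₄, -54 * W.c₆⟩

lemma shortZ_Δ (W : WeierstrassCurve ℤ) : (shortZ W).Δ = 2 ^ 12 * 3 ^ 12 * W.Δ := by
  simp only [shortZ, WeierstrassCurve.Δ, WeierstrassCurve.b₂, WeierstrassCurve.b₄,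
    WeierstrassCurve.b₆, WeierstrassCurve.b₈, WeierstrassCurve.c₄, WeierstrassCurve.c₆]
  ring

lemma not_dvd_shortZ_Δ (W : WeierstrassCurve ℤ) {ℓ : ℕ} (hℓ : ℓ.Prime) (h5 : 5 ≤ ℓ)
    (hgood : W.IsGoodPrimeFor ℓ) : ¬ (ℓ : ℤ) ∣ (shortZ W).Δ := by
  rw [shortZ_Δ]
  have hp : Prime (ℓ : ℤ) := Nat.prime_iff_prime_int.mp hℓ
  intro h
  rcases hp.dvd_or_dvd h with h | h
  · rcases hp.dvd_or_dvd h with h | h
    · have h2 := hp.dvd_of_dvd_pow h
      have : ℓ ∣ 2 := by exact_mod_cast h2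
      have := Nat.le_of_dvd (by norm_num) this
      omega
    · have h3 := hp.dvd_of_dvd_pow h
      have : ℓ ∣ 3 := by exact_mod_cast h3
      have := Nat.le_of_dvd (by norm_num) this
      omega
  · exact hgood h

end ShortModel

section Main

variable (W : WeierstrassCurve ℤ) (A : ValuationSubring Qb)

/-- The short model over the valuation ring. -/
noncomputable abbrev WA : WeierstrassCurve A := (shortZ W).map (algebraMap ℤ A)

/-- The short model over `ℚ`. -/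
noncomputable abbrev SQ : Affine ℚ :=
  Fermat.Agent.S52.Glue.shortOf (W.map (Int.castRingHom ℚ))

variable {A} in
lemma isUnit_WA_Δ {ℓ : ℕ} (hℓ : ℓ.Prime) (h5 : 5 ≤ ℓ) (hgood : W.IsGoodPrimeFor ℓ)
    (hA : A.LiesOverPrime ℓ) : IsUnit (WA W A).Δ := by
  rw [WeierstrassCurve.map_Δ, eq_intCast]
  exact Basics.isUnit_intCast hℓ hA (not_dvd_shortZ_Δ W hℓ h5 hgood)

lemma short_eq_WK : (SQ W)⁄Qb = Reduce.WK A (WA W A) := by
  (ext <;>
    simp [SQ, Fermat.Agent.S52.Glue.shortOf, shortCurve, shortZ, WA,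
      WeierstrassCurve.baseChange]) <;>
  exact Or.inl rfl

lemma reduced_eq {ℓ : ℕ} [Fact ℓ.Prime] [Algebra (ZMod ℓ) (IsLocalRing.ResidueField A)] :
    Reduce.Wk A (WA W A) = Consumer.shortBar ℓ (IsLocalRing.ResidueField A)
      (-27 * (W.c₄ : ZMod ℓ)) (-54 * (W.c₆ : ZMod ℓ)) := by
  (ext <;> simp [Consumer.shortBar, shortCurve, shortZ, WA]) <;>
  exact Or.inl (by rw [map_ofNat, map_ofNat])

variable {A}

/-- The Frobenius relation on the prime-to-`ℓ` torsion of the short model. -/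
theorem frobenius_relation_short {ℓ n : ℕ} (hℓ : ℓ.Prime) (h5 : 5 ≤ ℓ)
    (hgood : W.IsGoodPrimeFor ℓ) (hn : ¬ ℓ ∣ n) (hA : A.LiesOverPrime ℓ) (σ : Qb ≃ₐ[ℚ] Qb)
    (hσ : A.IsFrobeniusAt σ ℓ) (P : ((SQ W)⁄Qb).Point) (hP : n • P = 0) :
    σ • σ • P - W.apOfModel ℓ • σ • P + (ℓ : ℤ) • P = 0 := by
  classical
  have : Fact ℓ.Prime := ⟨hℓ⟩
  have : CharP (IsLocalRing.ResidueField A) ℓ := Basics.charP_residueField hℓ hA
  let _ : Algebra (ZMod ℓ) (IsLocalRing.ResidueField A) := ZMod.algebra _ ℓ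
  have : IsAlgClosed (IsLocalRing.ResidueField A) := Basics.isAlgClosed_residueField A
  have hnv : A.valuation (n : Qb) = 1 := Basics.valuation_natCast_eq_one hℓ hA hn
  have hΔ := isUnit_WA_Δ W hℓ h5 hgood hA
  obtain ⟨ρ, hρinj, hρ⟩ := exists_red A (WA W A) hΔ hnv ((SQ W)⁄Qb) (short_eq_WK W A)
  obtain ⟨φ, hφ, hφrel⟩ := exists_frob ℓ (IsLocalRing.ResidueField A) (by omega)
    (-27 * (W.c₄ : ZMod ℓ)) (-54 * (W.c₆ : ZMod ℓ)) (ShortForm.shortMod_disc_ne_zero ℓ W h5 hgood)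
    (Reduce.Wk A (WA W A)) (reduced_eq W A)
  rw [ShortForm.apOfModel_eq ℓ W h5 hgood]
  let s : ((SQ W)⁄Qb).Point →+ ((SQ W)⁄Qb).Point := DistribSMul.toAddMonoidHom _ σ
  have hsT : ∀ Q ∈ (nsmulAddMonoidHom (α := ((SQ W)⁄Qb).Point) n).ker,
      s Q ∈ (nsmulAddMonoidHom (α := ((SQ W)⁄Qb).Point) n).ker := by
    intro Q hQ
    have hQ' : n • Q = 0 := hQ
    change n • s Q = 0
    rw [← map_nsmul, hQ', map_zero]
  refine rel_of_reduction (nsmulAddMonoidHom (α := ((SQ W)⁄Qb).Point) n).ker ρ hρinj φ _ (ℓ : ℤ)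
    hφrel s hsT ?_ P hP
  intro Q hQ
  rcases Q with _ | ⟨x, y, h⟩
  · have e1 : (⟨s Point.zero, hsT _ hQ⟩ :
        (nsmulAddMonoidHom (α := ((SQ W)⁄Qb).Point) n).ker) = 0 := Subtype.ext (map_zero s)
    have e2 : (⟨Point.zero, hQ⟩ : (nsmulAddMonoidHom (α := ((SQ W)⁄Qb).Point) n).ker) = 0 := rfl
    rw [e1, e2, map_zero, map_zero]
  · obtain ⟨hx, hy, h', e⟩ := hρ x y h hQ
    have hs1 : s (Point.some x y h) = Point.some (σ x) (σ y) _ := Point.map_some σ.toAlgHom h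
    have h4 : n • Point.some (σ x) (σ y)
        ((WeierstrassCurve.Affine.baseChange_nonsingular _ σ.toAlgHom.injective x y).mpr h) = 0 := by
      rw [← hs1]; exact hsT _ hQ
    have e3 : (⟨s (Point.some x y h), hsT _ hQ⟩ :
        (nsmulAddMonoidHom (α := ((SQ W)⁄Qb).Point) n).ker) = ⟨Point.some (σ x) (σ y) _, h4⟩ :=
      Subtype.ext hs1
    obtain ⟨hx2, hy2, h2', e2⟩ := hρ (σ x) (σ y) _ h4
    rw [e3, e2, e]
    obtain ⟨h'', e4⟩ := hφ _ _ h'
    rw [e4]
    obtain ⟨hx3, ex⟩ := Basics.frobenius_coord hσ ⟨x, hx⟩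
    obtain ⟨hy3, ey⟩ := Basics.frobenius_coord hσ ⟨y, hy⟩
    exact Reduce.some_congr _ _ ex ey

/-- **Frobenius relation on torsion points.**  `E / ℚ` with integral model `W`, `ℓ ≥ 5` a good
prime, `σ` a Frobenius element at a place `A` over `ℓ`, `n` prime to `ℓ`: on the points of
`E(Qb)` killed by `n`, `σ² - a_ℓ(W) σ + ℓ = 0`. -/
theorem frobenius_relation (E : WeierstrassCurve ℚ) {W : WeierstrassCurve ℤ}
    (hW : W.IsIntegralModelOf E) {ℓ n : ℕ} (hℓ : ℓ.Prime) (h5 : 5 ≤ ℓ)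
    (hgood : W.IsGoodPrimeFor ℓ) (hn : ¬ ℓ ∣ n) {A : ValuationSubring Qb}
    (hA : A.LiesOverPrime ℓ) (σ : Qb ≃ₐ[ℚ] Qb) (hσ : A.IsFrobeniusAt σ ℓ)
    (P : (E⁄Qb).Point) (hP : n • P = 0) :
    σ • σ • P - W.apOfModel ℓ • σ • P + (ℓ : ℤ) • P = 0 := by
  obtain ⟨C, hC⟩ := hW
  have H1 : Rel E.toAffine (W.map (Int.castRingHom ℚ)).toAffine (C.u : ℚ) C.r C.s C.t := by
    rw [← hC]; exact Basics.rel_variableChange E C
  have H2 := Fermat.Agent.S52.Glue.rel_short (W.map (Int.castRingHom ℚ))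
    (by norm_num) (by norm_num)
  have H1' := Basics.rel_baseChange (K := Qb) H1
  have H2' := Basics.rel_baseChange (K := Qb) H2
  obtain ⟨P', rfl⟩ := Fermat.Agent.S52.Glue.Rel.pointMap_surjective H1' P
  obtain ⟨P'', rfl⟩ := Fermat.Agent.S52.Glue.Rel.pointMap_surjective H2' P'
  have hP'' : n • P'' = 0 := by
    apply H2'.pointMap_injective
    apply H1'.pointMap_injective
    have h1 : H1'.pointMap (H2'.pointMap (n • P'')) = n • H1'.pointMap (H2'.pointMap P'') := by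
      change H1'.pointHom (H2'.pointHom (n • P'')) = n • H1'.pointHom (H2'.pointHom P'')
      rw [map_nsmul, map_nsmul]
    rw [h1, hP]
    rfl
  have key := frobenius_relation_short W hℓ h5 hgood hn hA σ hσ P'' hP''
  have e1 : ∀ Q, H1'.pointHom (H2'.pointHom (σ • Q)) = σ • H1'.pointHom (H2'.pointHom Q) := by
    intro Q
    change H1'.pointMap (H2'.pointMap (σ • Q)) = σ • H1'.pointMap (H2'.pointMap Q)
    rw [Basics.pointMap_smul H2 σ Q, Basics.pointMap_smul H1 σ]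
  have key2 := congrArg (fun Q => H1'.pointHom (H2'.pointHom Q)) key
  simp only [map_add, map_sub, map_zsmul, map_zero, e1] at key2
  exact key2

end Main

end Fermat.Agent.S41.NonEis.FrobRel
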