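import Mathlib

/-!
# Abstract algebra for the non-Eisenstein prime

`V` a finite nontrivial `ZMod p`-module (`p` odd) with an irreducible action of a group `G`,
`Nat.card V ≠ p`.

* `lucas` : in a ring, `S² - a S + l = 0` implies `(S^b)² - t (S^b) + l^b = 0` for some integer
  `t`.
* `pow_smul_of_unipotent` : `(s - 1)² = 0` implies `s^k = 1 + k (s - 1)`.
* `trivial_of_unipotent` : a normal subgroup all of whose elements have `p`-th power acting
  trivially acts trivially.
* `false_of_abelian` : if the image of `G` is abelian, an involution `c` with "determinant `-1`"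
  (expressed through quadratic relations for `g` and `c * g`) cannot exist.
* `false_of_unipotent` : the combination used for the non-Eisenstein prime.
-/

set_option autoImplicit false

namespace Fermat.Agent.S41.NonEis.Group

section Lucas

/-- Lucas sequences: a root of `X² - a X + l` has its powers roots of `X² - t X + l^b`. -/
theorem lucas {R : Type*} [Ring R] (S : R) (a l : ℤ) (h : S * S - (a : R) * S + (l : R) = 0)
    (b : ℕ) : ∃ t : ℤ, S ^ b * S ^ b - (t : R) * S ^ b + (l : R) ^ b = 0 := by
  set W : R := (a : R) - S with hW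
  have hSa : S * (a : R) = (a : R) * S := (Int.commute_cast S a).eq
  have hSW : S * W = (l : R) := by
    rw [hW, mul_sub, hSa]
    have e : (a : R) * S - S * S - (l : R) = -(S * S - (a : R) * S + (l : R)) := by abel
    rw [← sub_eq_zero, e, h, neg_zero]
  have hcomm : Commute S W := (Int.commute_cast S a).sub_right (Commute.refl S)
  have hadd : S + W = (a : R) := by rw [hW]; abel
  have key : ∀ b : ℕ, (∃ t : ℤ, S ^ b + W ^ b = (t : R)) ∧
      (∃ t : ℤ, S ^ (b + 1) + W ^ (b + 1) = (t : R)) := by
    intro b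
    induction b with
    | zero =>
      refine ⟨⟨2, ?_⟩, ⟨a, ?_⟩⟩
      · rw [pow_zero, pow_zero]; norm_num
      · rw [zero_add, pow_one, pow_one, hadd]
    | succ b ih =>
      obtain ⟨⟨t0, h0⟩, ⟨t1, h1⟩⟩ := ih
      refine ⟨⟨t1, h1⟩, ⟨a * t1 - l * t0, ?_⟩⟩
      have c1 : S * W * S ^ b = W * S ^ (b + 1) := by
        rw [hcomm.eq, mul_assoc, ← pow_succ']
      have c2 : S * W * W ^ b = S * W ^ (b + 1) := by
        rw [mul_assoc, ← pow_succ']
      have e : S ^ (b + 1 + 1) + W ^ (b + 1 + 1) =
          (S + W) * (S ^ (b + 1) + W ^ (b + 1)) - S * W * (S ^ b + W ^ b) := by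
        rw [mul_add (S * W), c1, c2, add_mul, mul_add, mul_add, ← pow_succ', ← pow_succ']
        abel
      rw [e, h1, h0, hSW, hadd]
      push_cast
      rfl
  obtain ⟨t, ht⟩ := (key b).1
  refine ⟨t, ?_⟩
  have e2 : W ^ b * S ^ b = (l : R) ^ b := by
    rw [← hSW, hcomm.mul_pow]
    exact ((hcomm.pow_pow b b).eq).symm
  rw [← ht, add_mul, e2]
  abel

end Lucas

section Unipotent

variable {G V : Type*} [Group G] [AddCommGroup V] [DistribMulAction G V]

/-- If `(s - 1)² = 0` on `V` then `s^k = 1 + k (s - 1)`. -/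
theorem pow_smul_of_unipotent (s : G) (hs : ∀ v : V, s • s • v - (2 : ℤ) • s • v + v = 0)
    (k : ℕ) (v : V) : (s ^ k) • v = v + k • (s • v - v) := by
  induction k with
  | zero => simp
  | succ k ih =>
    have e : s • (k • (s • v - v)) = k • (s • (s • v - v)) :=
      map_nsmul (DistribSMul.toAddMonoidHom V s) k (s • v - v)
    have h2 : s • s • v = (2 : ℤ) • s • v - v := by
      have := hs v
      rw [← sub_eq_zero]
      rw [← this]
      abel
    rw [pow_succ', mul_smul, ih, smul_add, e, smul_sub, h2, succ_nsmul]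
    have e3 : (2 : ℤ) • s • v - v - s • v = s • v - v := by
      rw [two_zsmul]; abel
    rw [e3]
    abel

/-- If `(s - 1)² = 0` on `V` and `p` kills `V` then `s^p = 1` on `V`. -/
theorem pow_smul_eq_self_of_unipotent (s : G)
    (hs : ∀ v : V, s • s • v - (2 : ℤ) • s • v + v = 0) (p : ℕ) (hp : ∀ v : V, p • v = 0)
    (v : V) : (s ^ p) • v = v := by
  rw [pow_smul_of_unipotent s hs, hp, add_zero]

/-- Lucas sequences for a group action: a quadratic relation for `s` gives one for `s ^ b`. -/
theorem lucas_smul (s : G) (a l : ℤ) (h : ∀ v : V, s • s • v - a • s • v + l • v = 0) (b : ℕ) :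
    ∃ t : ℤ, ∀ v : V, (s ^ b) • (s ^ b) • v - t • (s ^ b) • v + (l ^ b) • v = 0 := by
  let S : AddMonoid.End V := DistribMulAction.toAddMonoidEnd G V s
  have hS : ∀ (k : ℕ) (v : V), (S ^ k) v = (s ^ k) • v := by
    intro k v
    have e : S ^ k = DistribMulAction.toAddMonoidEnd G V (s ^ k) := (map_pow _ s k).symm
    rw [e]; rfl
  have hrel : S * S - (a : AddMonoid.End V) * S + (l : AddMonoid.End V) = 0 := by
    refine AddMonoidHom.ext fun v => ?_
    change S (S v) - (a : AddMonoid.End V) (S v) + (l : AddMonoid.End V) v = 0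
    rw [AddMonoid.End.intCast_apply, AddMonoid.End.intCast_apply]
    exact h v
  obtain ⟨t, ht⟩ := lucas S a l hrel b
  refine ⟨t, fun v => ?_⟩
  have e := DFunLike.congr_fun ht v
  rw [← Int.cast_pow] at e
  change (S ^ b) ((S ^ b) v) - (t : AddMonoid.End V) ((S ^ b) v)
    + ((l ^ b : ℤ) : AddMonoid.End V) v = 0 at e
  rw [AddMonoid.End.intCast_apply, AddMonoid.End.intCast_apply, hS, hS] at e
  exact e

/-- Powers of an element acting trivially act trivially. -/
theorem pow_smul_eq_self {g : G} (hg : ∀ v : V, g • v = v) (k : ℕ) (v : V) : (g ^ k) • v = v := by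
  induction k with
  | zero => simp
  | succ k ih => rw [pow_succ, mul_smul, hg, ih]

/-- Powers of elements acting in the same way act in the same way. -/
theorem pow_smul_congr {g g' : G} (h : ∀ v : V, g • v = g' • v) (k : ℕ) (v : V) :
    (g ^ k) • v = (g' ^ k) • v := by
  induction k generalizing v with
  | zero => simp
  | succ k ih => rw [pow_succ, pow_succ, mul_smul, mul_smul, h, ih]

end Unipotent

lemma nsmul_p_eq_zero {p : ℕ} {V : Type*} [AddCommGroup V] [Module (ZMod p) V] (v : V) :
    p • v = 0 := by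
  have h : ((p : ℕ) : ZMod p) • v = 0 := by rw [ZMod.natCast_self, zero_smul]
  rwa [Nat.cast_smul_eq_nsmul (ZMod p)] at h

section Irreducible

variable {p : ℕ} [Fact p.Prime] {V : Type*} [AddCommGroup V] [Module (ZMod p) V]
  {G : Type*} [Group G] [DistribMulAction G V] [SMulCommClass G (ZMod p) V]


omit [SMulCommClass G (ZMod p) V] in
/-- A scalar killing every vector of a nontrivial space is zero. -/
lemma scalar_eq_zero [Nontrivial V] {a : ZMod p} (h : ∀ v : V, a • v = 0) : a = 0 := by
  obtain ⟨v, hv⟩ := exists_ne (0 : V)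
  exact (smul_eq_zero.mp (h v)).resolve_right hv

/-- A normal subgroup whose elements have `p`-th powers acting trivially on an irreducible
finite module acts trivially. -/
theorem trivial_of_unipotent [Finite V] [Nontrivial V]
    (hirr : ∀ N : Submodule (ZMod p) V, (∀ g : G, ∀ x ∈ N, g • x ∈ N) → N = ⊥ ∨ N = ⊤)
    (H : Subgroup G) [H.Normal] (hunip : ∀ h ∈ H, ∀ v : V, (h ^ p) • v = v) :
    ∀ h ∈ H, ∀ v : V, h • v = v := by
  classical
  -- the fixed submodule
  let F : Submodule (ZMod p) V :=
    { carrier := {v | ∀ h ∈ H, h • v = v}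
      add_mem' := fun {x y} hx hy h hh => by rw [smul_add, hx h hh, hy h hh]
      zero_mem' := fun h _ => smul_zero h
      smul_mem' := fun a x hx h hh => by rw [smul_comm, hx h hh] }
  have hF : ∀ v, v ∈ F ↔ ∀ h ∈ H, h • v = v := fun v => Iff.rfl
  have hstab : ∀ g : G, ∀ x ∈ F, g • x ∈ F := by
    intro g x hx h hh
    have h1 : g⁻¹ * h * g ∈ H := by
      have := Subgroup.Normal.conj_mem (inferInstance : H.Normal) h hh g⁻¹
      simpa using this
    have h2 := hx _ h1
    rw [mul_smul, mul_smul] at h2
    have h3 := congrArg (fun w => g • w) h2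
    simp only [smul_inv_smul] at h3
    exact h3
  -- the image of `H` in the permutations of `V` is a `p`-group
  let ρ : H →* Equiv.Perm V := (MulAction.toPermHom G V).comp H.subtype
  have hP : IsPGroup p ρ.range := by
    rintro ⟨_, ⟨h, rfl⟩⟩
    refine ⟨1, ?_⟩
    apply Subtype.ext
    rw [pow_one]
    change (ρ h) ^ p = 1
    rw [← map_pow]
    ext v
    exact hunip _ h.2 v
  -- a nonzero fixed point
  have hcard : p ∣ Nat.card V := by
    obtain ⟨v, hv⟩ := exists_ne (0 : V)
    have h1 : addOrderOf v ∣ p := addOrderOf_dvd_of_nsmul_eq_zero (nsmul_p_eq_zero v)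
    have h2 : addOrderOf v = p := by
      rcases (Nat.dvd_prime (Fact.out : p.Prime)).mp h1 with h | h
      · exact absurd (AddMonoid.addOrderOf_eq_one_iff.mp h) hv
      · exact h
    rw [← h2]
    exact addOrderOf_dvd_natCard v
  have h0 : (0 : V) ∈ MulAction.fixedPoints ρ.range V := by
    rintro ⟨_, ⟨h, rfl⟩⟩
    exact smul_zero (h : G)
  obtain ⟨b, hb, hb0⟩ := hP.exists_fixed_point_of_prime_dvd_card_of_fixed_point V hcard h0
  have hbF : b ∈ F := by
    intro h hh
    exact hb ⟨ρ ⟨h, hh⟩, ⟨⟨h, hh⟩, rfl⟩⟩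
  rcases hirr F hstab with hbot | htop
  · rw [hbot, Submodule.mem_bot] at hbF
    exact absurd hbF.symm hb0
  · intro h hh v
    have : v ∈ F := by rw [htop]; exact Submodule.mem_top
    exact this h hh

/-- An abelian image, an irreducible module which is not a line, and an involution `c` of
"determinant `-1`" are incompatible. -/
theorem false_of_abelian (hp2 : p ≠ 2) [Nontrivial V]
    (hirr : ∀ N : Submodule (ZMod p) V, (∀ g : G, ∀ x ∈ N, g • x ∈ N) → N = ⊥ ∨ N = ⊤)
    (hcard : Nat.card V ≠ p) (c : G) (hc : ∀ v : V, c • c • v = v)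
    (hrel : ∀ g : G, ∃ t t' d : ZMod p, d ≠ 0 ∧
      (∀ v : V, g • g • v - t • g • v + d • v = 0) ∧
      (∀ v : V, (c * g) • (c * g) • v - t' • (c * g) • v - d • v = 0))
    (habel : ∀ (g₁ g₂ : G) (v : V), (g₁ * g₂) • v = (g₂ * g₁) • v) : False := by
  classical
  have hp : p.Prime := Fact.out
  have h2 : (2 : ZMod p) ≠ 0 := by
    intro h
    have h' : ((2 : ℕ) : ZMod p) = 0 := by exact_mod_cast h
    rw [ZMod.natCast_eq_zero_iff] at h'
    exact hp2 ((Nat.prime_dvd_prime_iff_eq hp Nat.prime_two).mp h')
  -- (1) a non-scalar element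
  have hns : ∃ h : G, ¬ ∃ a : ZMod p, ∀ v : V, h • v = a • v := by
    by_contra hall
    push Not at hall
    obtain ⟨v₀, hv₀⟩ := exists_ne (0 : V)
    have hstab : ∀ g : G, ∀ x ∈ Submodule.span (ZMod p) {v₀}, g • x ∈ Submodule.span (ZMod p) {v₀} := by
      intro g x hx
      obtain ⟨a, ha⟩ := hall g
      rw [ha x]
      exact Submodule.smul_mem _ _ hx
    rcases hirr _ hstab with hbot | htop
    · have : v₀ ∈ Submodule.span (ZMod p) {v₀} := Submodule.mem_span_singleton_self v₀
      rw [hbot, Submodule.mem_bot] at this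
      exact hv₀ this
    · apply hcard
      have hbij : Function.Bijective (fun a : ZMod p => a • v₀) := by
        constructor
        · intro a b hab
          have : (a - b) • v₀ = 0 := by rw [sub_smul]; exact sub_eq_zero.mpr hab
          exact sub_eq_zero.mp ((smul_eq_zero.mp this).resolve_right hv₀)
        · intro v
          have : v ∈ Submodule.span (ZMod p) {v₀} := by rw [htop]; exact Submodule.mem_top
          exact Submodule.mem_span_singleton.mp this
      rw [← Nat.card_congr (Equiv.ofBijective _ hbij), Nat.card_zmod]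
  obtain ⟨h, hh⟩ := hns
  -- (2) `c` is not a scalar
  have hcns : ¬ ∃ ε : ZMod p, ∀ v : V, c • v = ε • v := by
    rintro ⟨ε, hε⟩
    have hε2 : ε * ε = 1 := by
      have : ∀ v : V, (ε * ε - 1) • v = 0 := by
        intro v
        have := hc v
        rw [hε, hε, smul_smul] at this
        rw [sub_smul, one_smul, this, sub_self]
      exact sub_eq_zero.mp (scalar_eq_zero this)
    obtain ⟨t, t', d, hd, h1, h3⟩ := hrel h
    have hch : ∀ v : V, (c * h) • v = ε • h • v := fun v => by rw [mul_smul, hε]
    have key : ∀ v : V, (t' * ε - t) • h • v + (2 * d) • v = 0 := by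
      intro v
      have e1 := h1 v
      have e3 := h3 v
      rw [hch, hch, smul_comm h ε (h • v), smul_smul ε ε, smul_smul t' ε, hε2, one_smul] at e3
      have : (t' * ε - t) • h • v + (2 * d) • v =
          (h • h • v - t • h • v + d • v) - (h • h • v - (t' * ε) • h • v - d • v) := by
        rw [sub_smul, two_mul, add_smul]; abel
      rw [this, e1, e3, sub_zero]
    by_cases hz : t' * ε - t = 0
    · have : ∀ v : V, (2 * d) • v = 0 := fun v => by
        have := key v
        rwa [hz, zero_smul, zero_add] at this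
      have := scalar_eq_zero this
      rcases mul_eq_zero.mp this with h | h
      · exact h2 h
      · exact hd h
    · apply hh
      refine ⟨-(2 * d) / (t' * ε - t), fun v => ?_⟩
      have := key v
      have e : h • v = (t' * ε - t)⁻¹ • ((t' * ε - t) • h • v) := by
        rw [smul_smul, inv_mul_cancel₀ hz, one_smul]
      rw [e, eq_neg_of_add_eq_zero_left this, smul_neg, ← neg_smul, smul_smul]
      congr 1
      field_simp
  -- (3) the `+1`-eigenspace of `c`
  let E : Submodule (ZMod p) V :=
    { carrier := {v | c • v = v}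
      add_mem' := fun {x y} hx hy => by
        change c • (x + y) = x + y
        rw [smul_add, show c • x = x from hx, show c • y = y from hy]
      zero_mem' := smul_zero c
      smul_mem' := fun a x hx => by
        change c • a • x = a • x
        rw [smul_comm, show c • x = x from hx] }
  have hE : ∀ v, v ∈ E ↔ c • v = v := fun v => Iff.rfl
  have hstab : ∀ g : G, ∀ x ∈ E, g • x ∈ E := by
    intro g x hx
    rw [hE] at hx ⊢
    rw [← mul_smul, habel c g, mul_smul, hx]
  rcases hirr E hstab with hbot | htop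
  · apply hcns
    refine ⟨-1, fun v => ?_⟩
    have : c • v + v ∈ E := by
      rw [hE, smul_add, hc, add_comm]
    rw [hbot, Submodule.mem_bot] at this
    rw [neg_smul, one_smul]
    exact eq_neg_of_add_eq_zero_left this
  · apply hcns
    refine ⟨1, fun v => ?_⟩
    have : v ∈ E := by rw [htop]; exact Submodule.mem_top
    rw [one_smul]
    exact this

/-- **The abstract contradiction.**  `H` a subgroup containing all commutators whose elements
have `p`-th powers acting trivially. -/
theorem false_of_unipotent (hp2 : p ≠ 2) [Finite V] [Nontrivial V]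
    (hirr : ∀ N : Submodule (ZMod p) V, (∀ g : G, ∀ x ∈ N, g • x ∈ N) → N = ⊥ ∨ N = ⊤)
    (hcard : Nat.card V ≠ p) (c : G) (hc : ∀ v : V, c • c • v = v)
    (hrel : ∀ g : G, ∃ t t' d : ZMod p, d ≠ 0 ∧
      (∀ v : V, g • g • v - t • g • v + d • v = 0) ∧
      (∀ v : V, (c * g) • (c * g) • v - t' • (c * g) • v - d • v = 0))
    (H : Subgroup G) (hcomm : ∀ g₁ g₂ : G, g₁ * g₂ * g₁⁻¹ * g₂⁻¹ ∈ H)
    (hunip : ∀ h ∈ H, ∀ v : V, (h ^ p) • v = v) : False := by
  have hnormal : H.Normal := ⟨fun h hh g => by
    have := H.mul_mem (hcomm g h) hh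
    simpa [mul_assoc] using this⟩
  have htriv := trivial_of_unipotent hirr H hunip
  refine false_of_abelian hp2 hirr hcard c hc hrel fun g₁ g₂ v => ?_
  have h1 := htriv _ (hcomm g₁ g₂) ((g₂ * g₁) • v)
  rw [← mul_smul] at h1
  have e : g₁ * g₂ * g₁⁻¹ * g₂⁻¹ * (g₂ * g₁) = g₁ * g₂ := by group
  rw [e] at h1
  exact h1

end Irreducible

end Fermat.Agent.S41.NonEis.Group
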