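import Fermat.Agent.S41.NonEis.Main

/-!
# (P6) in the shape consumed by `Fermat.Agent.S41.Assemble.result_of_data`

`hNE` : for every modulus `M > 0` there is a good prime `ℓ ≠ p`, `ℓ ∤ N q'`, `ℓ ≡ 1 mod M`, with
`a_ℓ(W) ≢ ℓ + 1 mod p` (the hypothesis `hNE` of `result_of_data`, literally).
-/

set_option autoImplicit false

namespace Fermat.Agent.S41.NonEis.Input

open WeierstrassCurve WeierstrassCurve.Affine WeierstrassCurve.Affine.Point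

/-- The non-Eisenstein input (P6) of the level-raising assembly. -/
theorem hNE (E : WeierstrassCurve ℚ) [E.IsElliptic] {W : WeierstrassCurve ℤ}
    (hW : W.IsIntegralModelOf E) {p : ℕ} (N q' : ℕ) (hp : p.Prime) (hp2 : p ≠ 2) (hN : 0 < N)
    (hq' : q'.Prime) (hirr : GaloisRepIsIrreducible (K := AlgebraicClosure ℚ) ℚ E p) :
    ∀ M : ℕ, 0 < M → ∃ ℓ : ℕ, ℓ.Prime ∧ W.IsGoodPrimeFor ℓ ∧ ℓ ≠ p ∧ ¬ ℓ ∣ N * q' ∧
      ℓ % M = 1 % M ∧ ¬ (p : ℤ) ∣ W.apOfModel ℓ - ((ℓ : ℤ) + 1) := by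
  intro M hM
  obtain ⟨ℓ, hℓ, hℓS, hgood, hℓp, hmod, hne⟩ :=
    Fermat.Agent.S41.NonEis.Main.exists_prime_not_eisenstein E hW hp hp2 hirr M hM
      (N * q').primeFactors
  refine ⟨ℓ, hℓ, hgood, hℓp, ?_, hmod, hne⟩
  intro hdvd
  exact hℓS (Nat.mem_primeFactors.mpr ⟨hℓ, hdvd, (Nat.mul_pos hN hq'.pos).ne'⟩)

end Fermat.Agent.S41.NonEis.Input
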