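import Mathlib
import Fermat.Prelude.Def_GaloisRep_ComplexConjugation

/-!
# A commutator of `Gal(Qbar / ℚ)` moving a `p`-th root of `q`

`p` an odd prime, `a : ℚ` not a `p`-th power, `α ∈ Qbar` with `α ^ p = a`.  Then there are
`g₁ g₂ ∈ Gal(Qbar / ℚ)` and a `p`-th root of unity `ω ≠ 1` such that the commutator
`s = g₁ g₂ g₁⁻¹ g₂⁻¹` satisfies `s α = ω α` and `s ω = ω` (`exists_commutator_of_not_pow`,
`exists_commutator_kummer` for `a = q` prime).  In particular `s α ≠ α`, `s (s α) ≠ α`, and `s`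
lies in the kernel of every homomorphism to a commutative group.

Proof.  `c` = complex conjugation inverts `p`-th roots of unity; `c α = η^b α`, so
`α₀ = η^m α` with `2 m ≡ b mod p` is a root of `X^p - a` fixed by `c`.  It is not rational, so
some `τ` moves it: `τ α₀ = ω₁ α₀`, `ω₁ ≠ 1`.  The commutator `s = c τ c⁻¹ τ⁻¹` maps
`y = τ α₀` to `c τ α₀ = ω₁⁻¹ α₀ = ω₁⁻² y` and fixes the `p`-th roots of unity.
-/

set_option autoImplicit false

namespace Fermat.Agent.S41.NonEis.KummerGal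

local notation "Qb" => AlgebraicClosure ℚ
local notation "Γ" => (AlgebraicClosure ℚ ≃ₐ[ℚ] AlgebraicClosure ℚ)

/-- Complex conjugation inverts roots of unity. -/
theorem cc_root {ζ : Qb} {n : ℕ} (hn : 0 < n) (hζ : ζ ^ n = 1) :
    complexConjugation ζ = ζ⁻¹ := by
  apply complexEmbedding.toRingHom.injective
  change complexEmbedding (complexConjugation ζ) = complexEmbedding ζ⁻¹
  rw [complexEmbedding_complexConjugation, map_inv₀]
  have h1 : (complexEmbedding ζ) ^ n = 1 := by rw [← map_pow, hζ, map_one]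
  exact (Complex.inv_eq_conj (Complex.norm_eq_one_of_pow_eq_one h1 hn.ne')).symm

/-- An element of `Qbar` which is not rational is moved by some automorphism. -/
theorem exists_move {x : Qb} (hx : x ∉ (algebraMap ℚ Qb).range) : ∃ τ : Γ, τ x ≠ x := by
  have hgal : IsGalois ℚ Qb := by
    have : IsAlgClosure ℚ Qb := ⟨inferInstance, AlgebraicClosure.isAlgebraic ℚ⟩
    exact IsAlgClosure.isGalois ℚ Qb
  by_contra hcon
  push Not at hcon
  exact hx ((InfiniteGalois.mem_range_algebraMap_iff_fixed x).mpr hcon)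

/-- A prime is not a `p`-th power of a rational number, `p ≥ 2`. -/
theorem prime_ne_pow {p q : ℕ} (hp : 2 ≤ p) (hq : q.Prime) (r : ℚ) : r ^ p ≠ (q : ℚ) := by
  intro h
  have hq1 : 1 < q := hq.one_lt
  have hr : r ≠ 0 := by
    rintro rfl
    rw [zero_pow (by omega)] at h
    exact (Nat.cast_ne_zero.mpr hq.ne_zero) h.symm
  have h1 : padicValRat q (r ^ p) = (p : ℤ) * padicValRat q r := by
    have : Fact q.Prime := ⟨hq⟩
    exact padicValRat.pow r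
  have h2 : padicValRat q (q : ℚ) = 1 := padicValRat.self hq1
  rw [h, h2] at h1
  have h3 : (p : ℤ) ∣ 1 := ⟨_, h1⟩
  have h4 : (p : ℤ) ≤ 1 := Int.le_of_dvd one_pos h3
  omega

/-- If `ω ^ p = 1` and `ω ^ 2 = 1` with `p` odd then `ω = 1`. -/
theorem eq_one_of_pow_two {K : Type*} [Monoid K] {p : ℕ} (hp : ¬ 2 ∣ p) {ω : K}
    (h1 : ω ^ p = 1) (h2 : ω ^ 2 = 1) : ω = 1 := by
  have hodd : p % 2 = 1 := by omega
  have e : p = 2 * (p / 2) + 1 := by omega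
  rw [e, pow_succ, pow_mul, h2, one_pow, one_mul] at h1
  exact h1

/-- **The Kummer commutator.** -/
theorem exists_commutator_of_not_pow {p : ℕ} (hp : p.Prime) (hp2 : p ≠ 2) {a : ℚ}
    (ha : ∀ r : ℚ, r ^ p ≠ a) {α : Qb} (hα : α ^ p = algebraMap ℚ Qb a) :
    ∃ (g₁ g₂ : Γ) (ω : Qb), ω ^ p = 1 ∧ ω ≠ 1 ∧
      (g₁ * g₂ * g₁⁻¹ * g₂⁻¹) α = ω * α ∧ (g₁ * g₂ * g₁⁻¹ * g₂⁻¹) ω = ω := by
  have hp0 : 0 < p := hp.pos
  have hne : NeZero p := ⟨hp.ne_zero⟩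
  have hodd : ¬ 2 ∣ p := fun h => hp2 ((Nat.prime_dvd_prime_iff_eq Nat.prime_two hp).mp h).symm
  have ha0 : a ≠ 0 := by
    rintro rfl
    exact ha 0 (zero_pow hp.ne_zero)
  have hα0 : α ≠ 0 := by
    rintro rfl
    rw [zero_pow hp.ne_zero] at hα
    exact ha0 ((map_eq_zero (algebraMap ℚ Qb)).mp hα.symm)
  -- a primitive `p`-th root of unity
  obtain ⟨η, hη⟩ := HasEnoughRootsOfUnity.exists_primitiveRoot Qb p
  have hηp : η ^ p = 1 := hη.pow_eq_one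
  have hη0 : η ≠ 0 := hη.ne_zero hp.ne_zero
  set c : Γ := complexConjugation with hc
  have hcη : c η = η⁻¹ := cc_root hp0 hηp
  -- `c α = η ^ b * α`
  have hcα : (c α / α) ^ p = 1 := by
    rw [div_pow, ← map_pow, hα, AlgEquiv.commutes]
    exact div_self ((map_ne_zero (algebraMap ℚ Qb)).mpr ha0)
  obtain ⟨b, -, hb⟩ := hη.eq_pow_of_pow_eq_one hcα
  have hcα' : c α = η ^ b * α := by
    rw [hb, div_mul_cancel₀ _ hα0]
  -- the fixed root
  set m : ℕ := b * ((p + 1) / 2) with hm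
  have h2m : η ^ m * η ^ m = η ^ b := by
    have e : m + m = p * b + b := by
      have : 2 * ((p + 1) / 2) = p + 1 := by omega
      calc m + m = b * (2 * ((p + 1) / 2)) := by rw [hm]; ring
        _ = p * b + b := by rw [this]; ring
    rw [← pow_add, e, pow_add, pow_mul, hηp, one_pow, one_mul]
  set α₀ : Qb := η ^ m * α with hα₀
  have hcα₀ : c α₀ = α₀ := by
    have hm0 : η ^ m ≠ 0 := pow_ne_zero _ hη0
    rw [hα₀, map_mul, map_pow, hcη, hcα', ← h2m, inv_pow]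
    field_simp
  have hα₀p : α₀ ^ p = algebraMap ℚ Qb a := by
    rw [hα₀, mul_pow, ← pow_mul, mul_comm m p, pow_mul, hηp, one_pow, one_mul, hα]
  have hα₀0 : α₀ ≠ 0 := mul_ne_zero (pow_ne_zero _ hη0) hα0
  have hα₀Q : α₀ ∉ (algebraMap ℚ Qb).range := by
    rintro ⟨r, hr⟩
    apply ha r
    apply (algebraMap ℚ Qb).injective
    rw [map_pow, hr, hα₀p]
  obtain ⟨τ, hτ⟩ := exists_move hα₀Q
  -- `τ α₀ = ω₁ * α₀`
  set ω₁ : Qb := τ α₀ / α₀ with hω₁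
  have hω₁p : ω₁ ^ p = 1 := by
    rw [hω₁, div_pow, ← map_pow, hα₀p, AlgEquiv.commutes]
    exact div_self ((map_ne_zero (algebraMap ℚ Qb)).mpr ha0)
  have hω₁1 : ω₁ ≠ 1 := by
    intro h
    apply hτ
    have := div_mul_cancel₀ (τ α₀) hα₀0
    rw [← hω₁, h, one_mul] at this
    exact this.symm
  have hτα₀ : τ α₀ = ω₁ * α₀ := by rw [hω₁, div_mul_cancel₀ _ hα₀0]
  have hω₁0 : ω₁ ≠ 0 := by
    intro h
    rw [h, zero_pow hp.ne_zero] at hω₁p
    exact zero_ne_one hω₁p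
  have hcω₁ : c ω₁ = ω₁⁻¹ := cc_root hp0 hω₁p
  -- the commutator
  set s : Γ := c * τ * c⁻¹ * τ⁻¹ with hs
  -- `s` fixes the `p`-th roots of unity
  have hsη : s η = η := by
    have hker : hη.autToPow ℚ s = 1 := by
      rw [hs, map_mul, map_mul, map_mul, map_inv, map_inv,
        mul_comm (hη.autToPow ℚ c) (hη.autToPow ℚ τ), mul_inv_cancel_right, mul_inv_cancel]
    have hspec := hη.autToPow_spec ℚ s
    have hfact : Fact (1 < p) := ⟨hp.one_lt⟩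
    rw [hker, Units.val_one, ZMod.val_one, pow_one] at hspec
    exact hspec.symm
  have hsroot : ∀ ξ : Qb, ξ ^ p = 1 → s ξ = ξ := by
    intro ξ hξ
    obtain ⟨i, -, rfl⟩ := hη.eq_pow_of_pow_eq_one hξ
    rw [map_pow, hsη]
  -- `s (τ α₀) = ω₁⁻¹ * α₀`
  have hcinv : c⁻¹ α₀ = α₀ := by
    have : c⁻¹ (c α₀) = α₀ := by
      rw [← AlgEquiv.mul_apply, inv_mul_cancel, AlgEquiv.one_apply]
    rwa [hcα₀] at this
  have hsy : s (τ α₀) = ω₁⁻¹ * α₀ := by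
    have e1 : τ⁻¹ (τ α₀) = α₀ := by
      rw [← AlgEquiv.mul_apply, inv_mul_cancel, AlgEquiv.one_apply]
    rw [hs, AlgEquiv.mul_apply, AlgEquiv.mul_apply, AlgEquiv.mul_apply, e1, hcinv, hτα₀,
      map_mul, hcω₁, hcα₀]
  -- conclusion
  refine ⟨c, τ, ω₁⁻¹ * ω₁⁻¹, ?_, ?_, ?_, ?_⟩
  · rw [mul_pow, inv_pow, hω₁p, inv_one, one_mul]
  · intro h
    apply hω₁1
    have h2 : ω₁ ^ 2 = 1 := by
      have : ω₁ ^ 2 * (ω₁⁻¹ * ω₁⁻¹) = 1 := by field_simp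
      rw [h, mul_one] at this
      exact this
    exact eq_one_of_pow_two hodd hω₁p h2
  · -- `α = (η^m)⁻¹ * ω₁⁻¹ * τ α₀`
    have hα_eq : α = (η ^ m)⁻¹ * (ω₁⁻¹ * τ α₀) := by
      rw [hτα₀, hα₀]
      have hm0 : η ^ m ≠ 0 := pow_ne_zero _ hη0
      field_simp
    have hsηm : s ((η ^ m)⁻¹) = (η ^ m)⁻¹ := by
      rw [map_inv₀, map_pow, hsη]
    have hsω : s (ω₁⁻¹) = ω₁⁻¹ := by
      rw [map_inv₀, hsroot ω₁ hω₁p]
    change s α = ω₁⁻¹ * ω₁⁻¹ * α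
    conv_lhs => rw [hα_eq]
    rw [map_mul, map_mul, hsηm, hsω, hsy, hα₀]
    have hm0 : η ^ m ≠ 0 := pow_ne_zero _ hη0
    field_simp
  · change s (ω₁⁻¹ * ω₁⁻¹) = ω₁⁻¹ * ω₁⁻¹
    rw [map_mul, map_inv₀, hsroot ω₁ hω₁p]

/-- **The Kummer commutator** for a prime `q`. -/
theorem exists_commutator_kummer {p q : ℕ} (hp : p.Prime) (hp2 : p ≠ 2) (hq : q.Prime)
    {α : Qb} (hα : α ^ p = (q : Qb)) :
    ∃ (g₁ g₂ : Γ) (ω : Qb), ω ^ p = 1 ∧ ω ≠ 1 ∧
      (g₁ * g₂ * g₁⁻¹ * g₂⁻¹) α = ω * α ∧ (g₁ * g₂ * g₁⁻¹ * g₂⁻¹) ω = ω := by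
  refine exists_commutator_of_not_pow hp hp2 (a := (q : ℚ)) (prime_ne_pow hp.two_le hq) ?_
  rw [hα, map_natCast]

/-- Consequences for an automorphism `s` with `s α = ω α`, `s ω = ω`, `ω ≠ 1` a `p`-th root of
unity, `p` odd, `α ≠ 0`: neither `s` nor `s²` fixes `α`. -/
theorem ne_of_eq_mul {p : ℕ} (hodd : ¬ 2 ∣ p) {s : Γ} {α ω : Qb} (hα0 : α ≠ 0)
    (hωp : ω ^ p = 1) (hω1 : ω ≠ 1) (hsα : s α = ω * α) (hsω : s ω = ω) :
    s α ≠ α ∧ s (s α) ≠ α := by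
  constructor
  · intro h
    rw [hsα] at h
    exact hω1 (mul_right_cancel₀ hα0 (h.trans (one_mul α).symm))
  · intro h
    rw [hsα, map_mul, hsω, hsα, ← mul_assoc] at h
    have h2 : ω * ω = 1 := mul_right_cancel₀ hα0 (h.trans (one_mul α).symm)
    exact hω1 (eq_one_of_pow_two hodd hωp (by rw [sq]; exact h2))

/-- Packaged form: for an odd prime `p` and a prime `q`, every `α` with `α ^ p = q` is moved by
a commutator `s` of `Gal(Qbar / ℚ)`, as is `s α` back to something different from `α`; moreover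
`s t α ≠ α` and `s s t α ≠ α` for every `t` fixing `α`. -/
theorem exists_commutator_move {p q : ℕ} (hp : p.Prime) (hp2 : p ≠ 2) (hq : q.Prime)
    {α : Qb} (hα : α ^ p = (q : Qb)) :
    ∃ g₁ g₂ : Γ, (g₁ * g₂ * g₁⁻¹ * g₂⁻¹) α ≠ α ∧
      ∀ t : Γ, t α = α → (g₁ * g₂ * g₁⁻¹ * g₂⁻¹ * t) α ≠ α ∧
        (g₁ * g₂ * g₁⁻¹ * g₂⁻¹ * (g₁ * g₂ * g₁⁻¹ * g₂⁻¹) * t) α ≠ α := by
  have hodd : ¬ 2 ∣ p := fun h => hp2 ((Nat.prime_dvd_prime_iff_eq Nat.prime_two hp).mp h).symm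
  have hα0 : α ≠ 0 := by
    rintro rfl
    rw [zero_pow hp.ne_zero] at hα
    exact (Nat.cast_ne_zero.mpr hq.ne_zero) hα.symm
  obtain ⟨g₁, g₂, ω, hωp, hω1, hsα, hsω⟩ := exists_commutator_kummer hp hp2 hq hα
  obtain ⟨h1, h2⟩ := ne_of_eq_mul hodd hα0 hωp hω1 hsα hsω
  refine ⟨g₁, g₂, h1, fun t ht => ⟨?_, ?_⟩⟩
  · rw [AlgEquiv.mul_apply, ht]; exact h1
  · rw [AlgEquiv.mul_apply, AlgEquiv.mul_apply, ht]; exact h2

end Fermat.Agent.S41.NonEis.KummerGal
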