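import Mathlib
import Fermat.Prelude.Def_FLTPrelim_Modularity
import Fermat.Prelude.Def_EllipticCurve_FrobeniusTrace
import Fermat.Prelude.Def_GaloisRep_ComplexConjugation
import Fermat.Agent.S41.NonEis.FrobRel
import Fermat.Agent.S41.NonEis.Roots
import Fermat.Agent.S41.NonEis.Group
import Fermat.Agent.Lib.FrobDensity.Lift
import Fermat.Agent.Lib.TorsionCard

/-!
# The non-Eisenstein prime (package (P6) of the level-raising programme)

`E / ℚ` an elliptic curve with integral model `W`, `p` an odd prime with `E[p]` irreducible.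
For every `M > 0` and every finite set `S` of primes there is a prime `ℓ ∉ S` of good reduction,
`ℓ ≠ p`, `ℓ ≡ 1 [MOD M]`, with `a_ℓ(W) ≢ ℓ + 1 (mod p)` (`exists_prime_not_eisenstein`).

Proof.  Otherwise every Frobenius element at a good prime `ℓ ≡ 1 (mod M p)` satisfies
`(σ - 1)² = 0` on `V = E[p]` (`FrobRel.frobenius_relation`), so by Frobenius density (generator
form) every element of `H = Gal(Qb / ℚ(ζ_{Mp}))` has `p`-th power acting trivially; `H` then
acts trivially and the image of Galois is abelian.  Frobenius density and Lucas sequences give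
quadratic relations `g² - t g + χ(g) = 0` for all `g`, and complex conjugation (`χ = -1`) yields
a contradiction (`Group.false_of_unipotent`).
-/

set_option autoImplicit false

namespace Fermat.Agent.S41.NonEis.Main

open WeierstrassCurve WeierstrassCurve.Affine WeierstrassCurve.Affine.Point
  Fermat.Agent.S41.NonEis

local notation "Qb" => AlgebraicClosure ℚ
local notation "Γ" => (AlgebraicClosure ℚ ≃ₐ[ℚ] AlgebraicClosure ℚ)

section Setup

variable (E : WeierstrassCurve ℚ) (p : ℕ)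

instance baseChange_isElliptic [E.IsElliptic] : (E⁄Qb).IsElliptic :=
  inferInstanceAs ((E.map (algebraMap ℚ Qb)).IsElliptic)

/-- The discriminant of an integral model of an elliptic curve is nonzero. -/
lemma Δ_ne_zero [E.IsElliptic] {W : WeierstrassCurve ℤ} (hW : W.IsIntegralModelOf E) :
    W.Δ ≠ 0 := by
  obtain ⟨C, hC⟩ := hW
  intro h0
  have h1 : (C • E).Δ = 0 := by rw [hC, WeierstrassCurve.map_Δ, h0, _root_.map_zero]
  rw [WeierstrassCurve.variableChange_Δ] at h1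
  rcases mul_eq_zero.mp h1 with h | h
  · exact (pow_ne_zero 12 (Units.ne_zero _)) h
  · exact E.isUnit_Δ.ne_zero h

/-- The coordinates of the `p`-torsion points. -/
def coordSet : Set Qb :=
  {z | ∃ (x y : Qb) (h : (E⁄Qb).Nonsingular x y), p • Point.some x y h = 0 ∧ (z = x ∨ z = y)}

lemma finite_coordSet [E.IsElliptic] (hp : 0 < p) : (coordSet E p).Finite := by
  have hfin : Finite (Submodule.torsionBy ℤ (E⁄Qb).Point (p : ℤ)) :=
    Fermat.Agent.Lib.TorsionCard.finite_torsionBy (E⁄Qb) p hp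
  let fx : Submodule.torsionBy ℤ (E⁄Qb).Point (p : ℤ) → Qb :=
    fun v => Fermat.Agent.Lib.KerRedAny.xc v.1
  let fy : Submodule.torsionBy ℤ (E⁄Qb).Point (p : ℤ) → Qb :=
    fun v => Fermat.Agent.Lib.KerRedAny.yc v.1
  refine ((Set.finite_range fx).union (Set.finite_range fy)).subset ?_
  rintro z ⟨x, y, h, hP, hz⟩
  have hv : Point.some x y h ∈ Submodule.torsionBy ℤ (E⁄Qb).Point (p : ℤ) := by
    rw [Submodule.mem_torsionBy_iff, natCast_zsmul]; exact hP
  rcases hz with rfl | rfl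
  · exact Or.inl ⟨⟨_, hv⟩, rfl⟩
  · exact Or.inr ⟨⟨_, hv⟩, rfl⟩

/-- The field generated by the coordinates of the `p`-torsion points and `ζ`. -/
noncomputable def fieldL (ζ : Qb) : IntermediateField ℚ Qb :=
  IntermediateField.adjoin ℚ (coordSet E p ∪ {ζ})

lemma finiteDimensional_fieldL [E.IsElliptic] (hp : 0 < p) (ζ : Qb) :
    FiniteDimensional ℚ (fieldL E p ζ) := by
  have : Finite ↑(coordSet E p ∪ {ζ}) :=
    ((finite_coordSet E p hp).union (Set.finite_singleton ζ)).to_subtype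
  have halg : Algebra.IsAlgebraic ℚ Qb := AlgebraicClosure.isAlgebraic ℚ
  exact IntermediateField.finiteDimensional_adjoin fun x _ =>
    (Algebra.IsAlgebraic.isAlgebraic x).isIntegral

lemma mem_fieldL_zeta (ζ : Qb) : ζ ∈ fieldL E p ζ :=
  IntermediateField.subset_adjoin _ _ (Or.inr rfl)

lemma nsmul_coe (v : Submodule.torsionBy ℤ (E⁄Qb).Point (p : ℤ)) :
    p • (v : (E⁄Qb).Point) = 0 := by
  have := (Submodule.mem_torsionBy_iff _ _).mp v.2
  rwa [natCast_zsmul] at this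

/-- Automorphisms agreeing on `fieldL` act in the same way on the `p`-torsion. -/
lemma smul_eq_of_eqOn (ζ : Qb) (σ τ : Γ) (h : ∀ x ∈ fieldL E p ζ, σ x = τ x)
    (v : Submodule.torsionBy ℤ (E⁄Qb).Point (p : ℤ)) : σ • v = τ • v := by
  apply Subtype.ext
  change σ • (v : (E⁄Qb).Point) = τ • (v : (E⁄Qb).Point)
  have hv := nsmul_coe E p v
  rcases hP : (v : (E⁄Qb).Point) with _ | ⟨x, y, hxy⟩
  · rfl
  · rw [hP] at hv
    have hx : x ∈ fieldL E p ζ :=
      IntermediateField.subset_adjoin _ _ (Or.inl ⟨x, y, hxy, hv, Or.inl rfl⟩)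
    have hy : y ∈ fieldL E p ζ :=
      IntermediateField.subset_adjoin _ _ (Or.inl ⟨x, y, hxy, hv, Or.inr rfl⟩)
    rw [algEquiv_smul_def, algEquiv_smul_def, Point.map_some, Point.map_some]
    exact Reduce.some_congr _ _ (h x hx) (h y hy)

/-- The Frobenius relation on the `p`-torsion module. -/
lemma frobenius_relation_V {W : WeierstrassCurve ℤ} (hW : W.IsIntegralModelOf E) (hp : p.Prime)
    {ℓ : ℕ} (hℓ : ℓ.Prime) (h5 : 5 ≤ ℓ) (hgood : W.IsGoodPrimeFor ℓ) (hℓp : ℓ ≠ p)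
    {A : ValuationSubring Qb} (hA : A.LiesOverPrime ℓ) (s : Γ) (hs : A.IsFrobeniusAt s ℓ)
    (v : Submodule.torsionBy ℤ (E⁄Qb).Point (p : ℤ)) :
    s • s • v - W.apOfModel ℓ • s • v + (ℓ : ℤ) • v = 0 := by
  apply Subtype.ext
  have hn : ¬ ℓ ∣ p := fun h => hℓp ((Nat.prime_dvd_prime_iff_eq hℓ hp).mp h)
  exact FrobRel.frobenius_relation E hW hℓ h5 hgood hn hA s hs (v : (E⁄Qb).Point)
    (nsmul_coe E p v)

/-- Integers divisible by `p` kill the `p`-torsion. -/
lemma zsmul_eq_zero_of_dvd {m : ℤ} (h : (p : ℤ) ∣ m)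
    (w : Submodule.torsionBy ℤ (E⁄Qb).Point (p : ℤ)) : m • w = 0 := by
  obtain ⟨q, rfl⟩ := h
  have h0 : (p : ℤ) • w = 0 := Submodule.smul_torsionBy (p : ℤ) w
  rw [mul_comm, mul_smul, h0, smul_zero]

end Setup

/-- **The non-Eisenstein prime.** -/
theorem exists_prime_not_eisenstein (E : WeierstrassCurve ℚ) [E.IsElliptic]
    {W : WeierstrassCurve ℤ} (hW : W.IsIntegralModelOf E) {p : ℕ} (hp : p.Prime) (hp2 : p ≠ 2)
    (hirr : GaloisRepIsIrreducible (K := AlgebraicClosure ℚ) ℚ E p) (M : ℕ) (hM : 0 < M)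
    (S : Finset ℕ) :
    ∃ ℓ : ℕ, ℓ.Prime ∧ ℓ ∉ S ∧ W.IsGoodPrimeFor ℓ ∧ ℓ ≠ p ∧ ℓ ≡ 1 [MOD M] ∧
      ¬ (p : ℤ) ∣ W.apOfModel ℓ - (ℓ + 1) := by
  by_contra hcon
  push Not at hcon
  have hpF : Fact p.Prime := ⟨hp⟩
  have hΔ0 : W.Δ ≠ 0 := Δ_ne_zero E hW
  -- the level `M' = M * p` and a primitive `M'`-th root of unity
  set M' : ℕ := M * p with hM'
  have hM'pos : 0 < M' := Nat.mul_pos hM hp.pos
  have hM'one : 1 < M' := by
    have := hp.two_le
    calc 1 < p := by omega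
      _ ≤ M * p := Nat.le_mul_of_pos_left p hM
  have : NeZero M' := ⟨hM'pos.ne'⟩
  have : Fact (1 < M') := ⟨hM'one⟩
  obtain ⟨ζ, hζ⟩ := HasEnoughRootsOfUnity.exists_primitiveRoot Qb M'
  have hζ1 : ζ ^ M' = 1 := hζ.pow_eq_one
  -- a primitive `p`-th root of unity
  set η : Qb := ζ ^ M with hη
  have hηprim : IsPrimitiveRoot η p := hζ.pow hM'pos hM'
  have hηp : η ^ p = 1 := hηprim.pow_eq_one
  have hη0 : η ≠ 0 := hηprim.ne_zero hp.ne_zero
  -- the field
  have hfd : FiniteDimensional ℚ (fieldL E p ζ) := finiteDimensional_fieldL E p hp.pos ζ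
  have hζL : ζ ∈ fieldL E p ζ := mem_fieldL_zeta E p ζ
  have hηL : η ∈ fieldL E p ζ := pow_mem hζL M
  -- the excluded primes
  set S' : Finset ℕ := S ∪ {2, 3, p} ∪ W.Δ.natAbs.primeFactors ∪ M'.primeFactors with hS'def
  have hS' : ∀ ℓ : ℕ, ℓ.Prime → ℓ ∉ S' →
      5 ≤ ℓ ∧ W.IsGoodPrimeFor ℓ ∧ ℓ ≠ p ∧ ¬ ℓ ∣ M' ∧ ℓ ∉ S := by
    intro ℓ hℓ hmem
    simp only [hS'def, Finset.mem_union, Finset.mem_insert, Finset.mem_singleton,
      Nat.mem_primeFactors, not_or, not_and] at hmem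
    obtain ⟨⟨⟨hS0, h2, h3, hp'⟩, hΔ'⟩, hM''⟩ := hmem
    refine ⟨?_, ?_, hp', ?_, hS0⟩
    · have h2le := hℓ.two_le
      by_contra hlt
      push Not at hlt
      have h4 : ℓ ≠ 4 := by
        rintro rfl
        exact absurd hℓ (by norm_num)
      omega
    · intro hdvd
      exact hΔ' hℓ (Int.natCast_dvd.mp hdvd) (Int.natAbs_ne_zero.mpr hΔ0)
    · intro hdvd
      exact hM'' hℓ hdvd hM'pos.ne'
  -- the module and the group
  have hfin : Finite (Submodule.torsionBy ℤ (E⁄Qb).Point (p : ℤ)) :=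
    Fermat.Agent.Lib.TorsionCard.finite_torsionBy (E⁄Qb) p hp.pos
  have hnt : Nontrivial (Submodule.torsionBy ℤ (E⁄Qb).Point (p : ℤ)) := hirr.1
  have hcard : Nat.card (Submodule.torsionBy ℤ (E⁄Qb).Point (p : ℤ)) ≠ p := by
    rw [Fermat.Agent.Lib.TorsionCard.card_torsionBy (E⁄Qb) p hp.pos]
    intro h
    have h1 : p * p = p * 1 := by rw [mul_one, ← sq]; exact h
    have := Nat.eq_of_mul_eq_mul_left hp.pos h1
    exact hp.one_lt.ne' this
  have hc : ∀ v : Submodule.torsionBy ℤ (E⁄Qb).Point (p : ℤ),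
      complexConjugation • complexConjugation • v = v := by
    intro v
    rw [← mul_smul, complexConjugation_mul_self, one_smul]
  have hℓ0 : ∀ {ℓ : ℕ}, ℓ.Prime → ℓ ≠ p → ((ℓ : ℤ) : ZMod p) ≠ 0 := by
    intro ℓ hℓ hℓp h0
    rw [Int.cast_natCast, ZMod.natCast_eq_zero_iff] at h0
    exact hℓp ((Nat.prime_dvd_prime_iff_eq hp hℓ).mp h0).symm
  -- quadratic relations for all elements
  have hrel : ∀ g : Γ, ∃ t t' d : ZMod p, d ≠ 0 ∧
      (∀ v : Submodule.torsionBy ℤ (E⁄Qb).Point (p : ℤ), g • g • v - t • g • v + d • v = 0) ∧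
      (∀ v : Submodule.torsionBy ℤ (E⁄Qb).Point (p : ℤ),
        (complexConjugation * g) • (complexConjugation * g) • v
          - t' • (complexConjugation * g) • v - d • v = 0) := by
    intro g
    obtain ⟨ℓ, A, s, b, hℓ, hℓS, hA, hs, hb, hsg⟩ :=
      Fermat.Agent.Lib.FrobDensity.exists_frobenius_pow_eq (fieldL E p ζ) S' g
    obtain ⟨ℓ', A', s', b', hℓ', hℓS', hA', hs', hb', hsg'⟩ :=
      Fermat.Agent.Lib.FrobDensity.exists_frobenius_pow_eq (fieldL E p ζ) S'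
        (complexConjugation * g)
    obtain ⟨h5, hgood, hℓp, -, -⟩ := hS' ℓ hℓ hℓS
    obtain ⟨h5', hgood', hℓp', -, -⟩ := hS' ℓ' hℓ' hℓS'
    obtain ⟨tb, htb⟩ := Group.lucas_smul s (W.apOfModel ℓ) ℓ
      (frobenius_relation_V E p hW hp hℓ h5 hgood hℓp hA s hs) b
    obtain ⟨tb', htb'⟩ := Group.lucas_smul s' (W.apOfModel ℓ') ℓ'
      (frobenius_relation_V E p hW hp hℓ' h5' hgood' hℓp' hA' s' hs') b'
    have hg : ∀ v : Submodule.torsionBy ℤ (E⁄Qb).Point (p : ℤ), (s ^ b) • v = g • v :=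
      fun v => smul_eq_of_eqOn E p ζ _ _ hsg v
    have hg' : ∀ v : Submodule.torsionBy ℤ (E⁄Qb).Point (p : ℤ),
        (s' ^ b') • v = (complexConjugation * g) • v :=
      fun v => smul_eq_of_eqOn E p ζ _ _ hsg' v
    -- the cyclotomic characters
    have hnℓ : ¬ ℓ ∣ p := fun h => hℓp ((Nat.prime_dvd_prime_iff_eq hℓ hp).mp h)
    have hnℓ' : ¬ ℓ' ∣ p := fun h => hℓp' ((Nat.prime_dvd_prime_iff_eq hℓ' hp).mp h)
    have e1 : g η = η ^ (ℓ ^ b) := by
      rw [← hsg η hηL]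
      exact Roots.frobenius_pow_root hℓ hA hnℓ hp.pos hs hηp b
    have e2 : complexConjugation (g η) = η ^ (ℓ' ^ b') := by
      have := hsg' η hηL
      rw [AlgEquiv.mul_apply] at this
      rw [← this]
      exact Roots.frobenius_pow_root hℓ' hA' hnℓ' hp.pos hs' hηp b'
    have e3 : η ^ (ℓ' ^ b' + ℓ ^ b) = 1 := by
      rw [pow_add, ← e2, e1, map_pow, Roots.complexConjugation_root hp.pos hηp, inv_pow,
        inv_mul_cancel₀ (pow_ne_zero _ hη0)]
    have e4 : p ∣ ℓ' ^ b' + ℓ ^ b := (hηprim.pow_eq_one_iff_dvd _).mp e3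
    have e5 : (((ℓ' : ℤ) ^ b' : ℤ) : ZMod p) = -(((ℓ : ℤ) ^ b : ℤ) : ZMod p) := by
      have h0 : ((ℓ' ^ b' + ℓ ^ b : ℕ) : ZMod p) = 0 := (ZMod.natCast_eq_zero_iff _ _).mpr e4
      push_cast at h0 ⊢
      exact eq_neg_of_add_eq_zero_left h0
    refine ⟨(tb : ZMod p), (tb' : ZMod p), (((ℓ : ℤ) ^ b : ℤ) : ZMod p), ?_, ?_, ?_⟩
    · rw [Int.cast_pow]
      exact pow_ne_zero _ (hℓ0 hℓ hℓp)
    · intro v
      have := htb v
      rw [hg, hg] at this
      rw [Int.cast_smul_eq_zsmul, Int.cast_smul_eq_zsmul]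
      exact this
    · intro v
      have := htb' v
      rw [hg', hg'] at this
      rw [sub_eq_add_neg _ ((((ℓ : ℤ) ^ b : ℤ) : ZMod p) • v), ← neg_smul, ← e5,
        Int.cast_smul_eq_zsmul, Int.cast_smul_eq_zsmul]
      exact this
  -- the subgroup fixing `ζ`
  let χ : Γ →* (ZMod M')ˣ := hζ.autToPow ℚ
  have hcomm : ∀ g₁ g₂ : Γ, g₁ * g₂ * g₁⁻¹ * g₂⁻¹ ∈ χ.ker := by
    intro g₁ g₂
    rw [MonoidHom.mem_ker, map_mul, map_mul, map_mul, map_inv, map_inv, mul_comm (χ g₁) (χ g₂),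
      mul_inv_cancel_right, mul_inv_cancel]
  have hunip : ∀ h ∈ χ.ker, ∀ v : Submodule.torsionBy ℤ (E⁄Qb).Point (p : ℤ),
      (h ^ p) • v = v := by
    intro h hh v
    obtain ⟨ℓ, A, s, b, k, hℓ, hℓS, hA, hs, hb, hsh, hhs⟩ :=
      Fermat.Agent.Lib.FrobDensity.exists_frobenius_generator (fieldL E p ζ) S' h
    obtain ⟨h5, hgood, hℓp, hℓM, hℓS0⟩ := hS' ℓ hℓ hℓS
    have hhζ : h ζ = ζ := by
      have := hζ.autToPow_spec ℚ h
      have hχ : hζ.autToPow ℚ h = 1 := MonoidHom.mem_ker.mp hh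
      rw [hχ, Units.val_one, ZMod.val_one, pow_one] at this
      exact this.symm
    have hhk : ∀ j : ℕ, (h ^ j) ζ = ζ := by
      intro j
      induction j with
      | zero => simp
      | succ j ih => rw [pow_succ, AlgEquiv.mul_apply, hhζ, ih]
    have hsζ : s ζ = ζ := by rw [← hhs ζ hζL]; exact hhk k
    have hζℓ : ζ ^ ℓ = ζ := (Roots.frobenius_root hℓ hA hℓM hM'pos hs hζ1).symm.trans hsζ
    have hdvd : M' ∣ ℓ - 1 := by
      rw [← hζ.pow_eq_one_iff_dvd]
      have hζ0 : ζ ≠ 0 := hζ.ne_zero hM'pos.ne'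
      have : ζ ^ (ℓ - 1) * ζ = 1 * ζ := by
        rw [← pow_succ, Nat.sub_add_cancel hℓ.one_le, hζℓ, one_mul]
      exact mul_right_cancel₀ hζ0 this
    have hmodM : ℓ ≡ 1 [MOD M] :=
      ((Nat.modEq_iff_dvd' hℓ.one_le).mpr (dvd_trans (Dvd.intro _ rfl) hdvd)).symm
    have hpdvd : (p : ℤ) ∣ (ℓ : ℤ) - 1 := by
      have h1 : p ∣ ℓ - 1 := dvd_trans (Dvd.intro_left _ rfl) hdvd
      have h2 := Int.natCast_dvd_natCast.mpr h1
      rwa [Nat.cast_sub hℓ.one_le, Nat.cast_one] at h2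
    have hap := hcon ℓ hℓ hℓS0 hgood hℓp hmodM
    have hrelV := frobenius_relation_V E p hW hp hℓ h5 hgood hℓp hA s hs
    have h2 : ∀ w : Submodule.torsionBy ℤ (E⁄Qb).Point (p : ℤ),
        s • s • w - (2 : ℤ) • s • w + w = 0 := by
      intro w
      have e := hrelV w
      have ha : W.apOfModel ℓ • s • w = (2 : ℤ) • s • w := by
        have hd : (p : ℤ) ∣ W.apOfModel ℓ - 2 := by
          have := dvd_add hap hpdvd
          have e' : W.apOfModel ℓ - ((ℓ : ℤ) + 1) + ((ℓ : ℤ) - 1) = W.apOfModel ℓ - 2 := by ring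
          rwa [e'] at this
        have := zsmul_eq_zero_of_dvd E p hd (s • w)
        rw [sub_smul] at this
        exact sub_eq_zero.mp this
      have hl : (ℓ : ℤ) • w = w := by
        have := zsmul_eq_zero_of_dvd E p hpdvd w
        rw [sub_smul, one_smul] at this
        exact sub_eq_zero.mp this
      rw [ha, hl] at e
      exact e
    have h3 : ∀ w : Submodule.torsionBy ℤ (E⁄Qb).Point (p : ℤ), (s ^ p) • w = w :=
      Group.pow_smul_eq_self_of_unipotent s h2 p (fun w => Group.nsmul_p_eq_zero w)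
    have h4 : ∀ w : Submodule.torsionBy ℤ (E⁄Qb).Point (p : ℤ), h • w = (s ^ b) • w :=
      fun w => (smul_eq_of_eqOn E p ζ _ _ hsh w).symm
    rw [Group.pow_smul_congr h4 p v, ← pow_mul, mul_comm, pow_mul]
    exact Group.pow_smul_eq_self h3 b v
  exact Group.false_of_unipotent hp2 hirr.2 hcard complexConjugation hc hrel χ.ker hcomm hunip

end Fermat.Agent.S41.NonEis.Main
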